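/-
S05 library: the Legendre-type curve `y² = x³ + a x² + b x`, Vieta relations for the
chord-tangent law, and translation by the 2-torsion point `T = (0,0)`.
-/
import Mathlib

set_option autoImplicit false

namespace Fermat.Agent.S05lib

open WeierstrassCurve

/-- The curve `y² = x³ + a x² + b x`. -/
def legW {F : Type*} [CommRing F] (a b : F) : WeierstrassCurve F := ⟨0, a, 0, b, 0⟩

section basic

variable {F : Type*} [CommRing F] (a b : F)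

@[simp] lemma legW_a₁ : (legW a b).a₁ = 0 := rfl
@[simp] lemma legW_a₂ : (legW a b).a₂ = a := rfl
@[simp] lemma legW_a₃ : (legW a b).a₃ = 0 := rfl
@[simp] lemma legW_a₄ : (legW a b).a₄ = b := rfl
@[simp] lemma legW_a₆ : (legW a b).a₆ = 0 := rfl

lemma legW_map {F' : Type*} [CommRing F'] (f : F →+* F') :
    (legW a b).map f = legW (f a) (f b) := by
  ext <;> simp [legW]

lemma leg_equation_iff (x y : F) :
    (legW a b).toAffine.Equation x y ↔ y ^ 2 = x ^ 3 + a * x ^ 2 + b * x := by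
  rw [Affine.equation_iff]
  simp

lemma leg_negY (x y : F) : (legW a b).toAffine.negY x y = -y := by
  simp [Affine.negY]

lemma leg_addX (x₁ x₂ ℓ : F) : (legW a b).toAffine.addX x₁ x₂ ℓ = ℓ ^ 2 - a - x₁ - x₂ := by
  simp [Affine.addX]

lemma leg_addY (x₁ x₂ y₁ ℓ : F) : (legW a b).toAffine.addY x₁ x₂ y₁ ℓ =
    -(ℓ * ((ℓ ^ 2 - a - x₁ - x₂) - x₁) + y₁) := by
  simp [Affine.addY, Affine.negAddY, Affine.negY, Affine.addX]

end basic

section field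

variable {K : Type*} [Field K] [DecidableEq K] (a b : K)

lemma leg_nonsingular_iff (x y : K) :
    (legW a b).toAffine.Nonsingular x y ↔
      y ^ 2 = x ^ 3 + a * x ^ 2 + b * x ∧ (3 * x ^ 2 + 2 * a * x + b ≠ 0 ∨ y ≠ -y) := by
  rw [Affine.nonsingular_iff, leg_equation_iff]
  simp only [legW_a₁, legW_a₂, legW_a₃, legW_a₄, zero_mul, sub_zero]
  constructor
  · rintro ⟨h, h' | h'⟩
    · exact ⟨h, Or.inl (Ne.symm h')⟩
    · exact ⟨h, Or.inr h'⟩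
  · rintro ⟨h, h' | h'⟩
    · exact ⟨h, Or.inl (Ne.symm h')⟩
    · exact ⟨h, Or.inr h'⟩

open WeierstrassCurve.Affine in
/-- The chord-tangent construction on `y² = x³ + a x² + b x`, packaged with the Vieta
relations: the sum of two affine points which are not opposite is the affine point
`(x₃, -(ℓ x₃ + ν))`, where `y = ℓ x + ν` is the line through the two points. -/
theorem leg_add_some {x₁ x₂ y₁ y₂ : K} (h₁ : (legW a b).toAffine.Nonsingular x₁ y₁)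
    (h₂ : (legW a b).toAffine.Nonsingular x₂ y₂)
    (hxy : ¬(x₁ = x₂ ∧ y₁ = (legW a b).toAffine.negY x₂ y₂)) :
    ∃ (ℓ ν x₃ y₃ : K) (h₃ : (legW a b).toAffine.Nonsingular x₃ y₃),
      Point.some _ _ h₁ + Point.some _ _ h₂ = Point.some _ _ h₃ ∧
      y₁ = ℓ * x₁ + ν ∧ y₂ = ℓ * x₂ + ν ∧ y₃ = -(ℓ * x₃ + ν) ∧
      x₁ + x₂ + x₃ = ℓ ^ 2 - a ∧
      x₁ * x₂ + x₁ * x₃ + x₂ * x₃ = b - 2 * ℓ * ν ∧
      x₁ * x₂ * x₃ = ν ^ 2 := by
  set ℓ := (legW a b).toAffine.slope x₁ x₂ y₁ y₂ with hℓ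
  set x₃ := (legW a b).toAffine.addX x₁ x₂ ℓ with hx₃
  have hadd := Point.add_some hxy (h₁ := h₁) (h₂ := h₂)
  have hpoly := Affine.addPolynomial_slope h₁.1 h₂.1 hxy
  rw [Affine.addPolynomial_eq, neg_inj, Cubic.prod_X_sub_C_eq, Cubic.toPoly_injective] at hpoly
  have hc := congrArg Cubic.c hpoly
  have hd := congrArg Cubic.d hpoly
  simp only [legW_a₁, legW_a₃, legW_a₄, legW_a₆, zero_mul, sub_zero, neg_zero, add_zero,
    mul_zero, zero_add] at hc hd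
  rw [← hℓ, ← hx₃] at hc hd
  have hx₃' : x₃ = ℓ ^ 2 - a - x₁ - x₂ := leg_addX a b x₁ x₂ ℓ
  have hy₂ : y₂ = ℓ * x₂ + (y₁ - ℓ * x₁) := by
    by_cases hx : x₁ = x₂
    · have hy : y₁ ≠ (legW a b).toAffine.negY x₂ y₂ := fun h => hxy ⟨hx, h⟩
      have := Affine.Y_eq_of_Y_ne h₁.1 h₂.1 hx hy
      rw [← hx, this]; ring
    · have hne : x₁ - x₂ ≠ 0 := sub_ne_zero.mpr hx
      have : ℓ = (y₁ - y₂) / (x₁ - x₂) := by rw [hℓ, Affine.slope_of_X_ne hx]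
      rw [this]
      field_simp
      ring
  refine ⟨ℓ, y₁ - ℓ * x₁, x₃, (legW a b).toAffine.addY x₁ x₂ y₁ ℓ, _, hadd, by ring, hy₂, ?_,
    ?_, ?_, ?_⟩
  · rw [leg_addY, ← hx₃']; ring
  · rw [hx₃']; ring
  · linear_combination -hc
  · linear_combination hd

open WeierstrassCurve.Affine in
/-- Consequences of the Vieta relations which are used for the valuation analysis. -/
theorem leg_add_some' {x₁ x₂ y₁ y₂ : K} (h₁ : (legW a b).toAffine.Nonsingular x₁ y₁)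
    (h₂ : (legW a b).toAffine.Nonsingular x₂ y₂)
    (hxy : ¬(x₁ = x₂ ∧ y₁ = (legW a b).toAffine.negY x₂ y₂)) :
    ∃ (ν x₃ y₃ : K) (h₃ : (legW a b).toAffine.Nonsingular x₃ y₃),
      Point.some _ _ h₁ + Point.some _ _ h₂ = Point.some _ _ h₃ ∧
      x₁ * x₂ * x₃ = ν ^ 2 ∧
      ν * (y₁ * x₂ + y₂ * x₁) = x₁ * x₂ * (b - x₁ * x₂) ∧
      ν * (y₃ * x₂ - y₂ * x₃) = x₂ * x₃ * (x₂ * x₃ - b) ∧
      y₃ * x₂ + y₂ * x₃ = ν * (x₃ - x₂) := by
  obtain ⟨ℓ, ν, x₃, y₃, h₃, hadd, hy₁, hy₂, hy₃, -, hV2, hV3⟩ := leg_add_some a b h₁ h₂ hxy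
  refine ⟨ν, x₃, y₃, h₃, hadd, hV3, ?_, ?_, ?_⟩
  · rw [hy₁, hy₂]
    linear_combination (x₁ * x₂) * hV2 + (-(x₁ + x₂)) * hV3
  · rw [hy₃, hy₂]
    linear_combination (-(x₂ * x₃)) * hV2 + (x₂ + x₃) * hV3
  · rw [hy₃, hy₂]; ring

end field

end Fermat.Agent.S05lib
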