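/-
S05 library: glue between the coordinate-level theorems on `legW a b` over `K` and the Galois
action on `(W⁄K).Point` for a curve `W` over a base field `F₀`.
-/
import Mathlib
import Fermat.Prelude.Def_FLTPrelim_GaloisRep
import Fermat.Agent.S05lib.LegCurve
import Fermat.Agent.S51lib.Transfer

set_option autoImplicit false
set_option linter.unusedSectionVars false

namespace Fermat.Agent.S05lib

open WeierstrassCurve WeierstrassCurve.Affine WeierstrassCurve.Affine.Point

section cast

variable {K : Type*} [Field K] [DecidableEq K]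

/-- Transport of points along an equality of curves. -/
noncomputable def ptCast {W₁ W₂ : WeierstrassCurve K} (e : W₁ = W₂) :
    W₁.toAffine.Point ≃+ W₂.toAffine.Point :=
  e ▸ AddEquiv.refl _

lemma ptCast_some {W₁ W₂ : WeierstrassCurve K} (e : W₁ = W₂) {x y : K}
    (h : W₁.toAffine.Nonsingular x y) :
    ∃ h' : W₂.toAffine.Nonsingular x y, ptCast e (.some x y h) = .some x y h' := by
  subst e
  exact ⟨h, rfl⟩

lemma ptCast_symm_some {W₁ W₂ : WeierstrassCurve K} (e : W₁ = W₂) {x y : K}
    (h : W₂.toAffine.Nonsingular x y) :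
    ∃ h' : W₁.toAffine.Nonsingular x y, (ptCast e).symm (.some x y h) = .some x y h' := by
  subst e
  exact ⟨h, rfl⟩

end cast

section galois

variable {F₀ : Type*} {K : Type*} [Field F₀] [Field K] [DecidableEq K] [Algebra F₀ K]

/-- `σ` fixes all `p`-torsion points of `W⁄K`. -/
def FixesTorsion (W : Affine F₀) (σ : K ≃ₐ[F₀] K) (p : ℕ) : Prop :=
  ∀ P : (W⁄K).Point, p • P = 0 → σ • P = P

/-- Transfer along a change of variables defined over the base field. -/
theorem FixesTorsion.of_variableChange (W : Affine F₀) (C : VariableChange F₀) (σ : K ≃ₐ[F₀] K)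
    (p : ℕ) (h : FixesTorsion (C • W) σ p) : FixesTorsion W σ p := by
  intro P hP
  set e := S51lib.vcEquivBaseChange (K := K) W C with he
  have h1 : p • e.symm P = 0 := by rw [← map_nsmul, hP, _root_.map_zero]
  have h2 := h (e.symm P) h1
  have h3 : e (σ • e.symm P) = σ • e (e.symm P) := S51lib.vcEquivBaseChange_smul W C σ _
  rw [h2, e.apply_symm_apply] at h3
  exact h3.symm

lemma legW_baseChange (a b : F₀) :
    ((legW a b : Affine F₀)⁄K : WeierstrassCurve K) =
      legW (algebraMap F₀ K a) (algebraMap F₀ K b) :=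
  legW_map a b (algebraMap F₀ K)

/-- Reduction of `FixesTorsion` for `legW a b` to a coordinate-level statement over `K`. -/
theorem fixesTorsion_legW (a b : F₀) (σ : K ≃ₐ[F₀] K) (p : ℕ)
    (H : ∀ τ : (legW (algebraMap F₀ K a) (algebraMap F₀ K b)).toAffine.Point →+
        (legW (algebraMap F₀ K a) (algebraMap F₀ K b)).toAffine.Point,
      (∀ (x y : K)
        (hP : (legW (algebraMap F₀ K a) (algebraMap F₀ K b)).toAffine.Nonsingular x y),
        ∃ hP' : (legW (algebraMap F₀ K a) (algebraMap F₀ K b)).toAffine.Nonsingular (σ x) (σ y),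
          τ (.some x y hP) = .some (σ x) (σ y) hP') →
      ∀ P, p • P = 0 → τ P = P) :
    FixesTorsion (legW a b : Affine F₀) σ p := by
  intro P hP
  set e := ptCast (legW_baseChange (K := K) a b) with he
  let τ : (legW (algebraMap F₀ K a) (algebraMap F₀ K b)).toAffine.Point →+
      (legW (algebraMap F₀ K a) (algebraMap F₀ K b)).toAffine.Point :=
    e.toAddMonoidHom.comp ((Point.map (W' := (legW a b : Affine F₀)) σ.toAlgHom).comp
      e.symm.toAddMonoidHom)
  have hτ : ∀ (x y : K)
      (hP : (legW (algebraMap F₀ K a) (algebraMap F₀ K b)).toAffine.Nonsingular x y),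
      ∃ hP' : (legW (algebraMap F₀ K a) (algebraMap F₀ K b)).toAffine.Nonsingular (σ x) (σ y),
        τ (.some x y hP) = .some (σ x) (σ y) hP' := by
    intro x y hxy
    obtain ⟨h1, e1⟩ := ptCast_symm_some (legW_baseChange (K := K) a b) hxy
    have h2 : ((legW a b : Affine F₀)⁄K).Nonsingular (σ.toAlgHom x) (σ.toAlgHom y) :=
      (baseChange_nonsingular (legW a b : Affine F₀) σ.toAlgHom.injective x y).mpr h1
    obtain ⟨h3, e3⟩ := ptCast_some (legW_baseChange (K := K) a b) h2
    refine ⟨h3, ?_⟩
    change e (Point.map σ.toAlgHom (e.symm (.some x y hxy))) = _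
    rw [he, e1, Point.map_some]
    exact e3
  have h1 : p • e P = 0 := by rw [← map_nsmul, hP, _root_.map_zero]
  have h2 := H τ hτ (e P) h1
  have h3 : e (Point.map σ.toAlgHom (e.symm (e P))) = e P := h2
  rw [e.symm_apply_apply] at h3
  exact e.injective h3

/-- Variant of `fixesTorsion_legW` with the coefficients over `K` given up to equality. -/
theorem fixesTorsion_legW' (a b : F₀) (a' b' : K) (ha : algebraMap F₀ K a = a')
    (hb : algebraMap F₀ K b = b') (σ : K ≃ₐ[F₀] K) (p : ℕ)
    (H : ∀ τ : (legW a' b').toAffine.Point →+ (legW a' b').toAffine.Point,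
      (∀ (x y : K) (hP : (legW a' b').toAffine.Nonsingular x y),
        ∃ hP' : (legW a' b').toAffine.Nonsingular (σ x) (σ y),
          τ (.some x y hP) = .some (σ x) (σ y) hP') →
      ∀ P, p • P = 0 → τ P = P) :
    FixesTorsion (legW a b : Affine F₀) σ p := by
  subst ha hb
  exact fixesTorsion_legW a b σ p H

end galois

end Fermat.Agent.S05lib
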