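/-
S05 library: ring endomorphisms preserving a valuation ring.
-/
import Mathlib

set_option autoImplicit false

namespace Fermat.Agent.S05lib

variable {K : Type*} [Field K] {Γ₀ : Type*} [LinearOrderedCommGroupWithZero Γ₀]
  {v : Valuation K Γ₀} {σ : K →+* K}

lemma one_lt_sigma (hσA : ∀ x, v (σ x) ≤ 1 ↔ v x ≤ 1) {x : K} (hx : 1 < v x) : 1 < v (σ x) := by
  by_contra hc
  push Not at hc
  exact absurd ((hσA x).mp hc) (not_le.mpr hx)

lemma sigma_eq_one (hσA : ∀ x, v (σ x) ≤ 1 ↔ v x ≤ 1) {x : K} (hx : v x = 1) : v (σ x) = 1 := by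
  apply le_antisymm ((hσA x).mpr hx.le)
  have h1 : v (σ x⁻¹) ≤ 1 := (hσA x⁻¹).mpr (by rw [map_inv₀, hx, inv_one])
  rw [map_inv₀, map_inv₀] at h1
  have hx0 : x ≠ 0 := by
    rintro rfl
    rw [map_zero] at hx
    exact zero_ne_one hx
  have hσx0 : v (σ x) ≠ 0 := (Valuation.ne_zero_iff v).mpr ((map_ne_zero σ).mpr hx0)
  exact (inv_le_one₀ (zero_lt_iff.mpr hσx0)).mp h1

end Fermat.Agent.S05lib
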