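/-
S05 library: inertia acts trivially on the `p`-torsion of `y² = x³ + a x² + b x` when the
reduction is good (`v b = 1`, `v (a² - 4b) = 1`, `v 2 = 1`) and `v p = 1`.
-/
import Mathlib
import Fermat.Agent.S05lib.LegCurve
import Fermat.Agent.S05lib.KerRed.Main
import Fermat.Agent.S05lib.SigmaVal

set_option autoImplicit false
set_option linter.unusedSectionVars false

namespace Fermat.Agent.S05lib

open WeierstrassCurve WeierstrassCurve.Affine

section

variable {K : Type*} [Field K] [DecidableEq K] {Γ₀ : Type*} [LinearOrderedCommGroupWithZero Γ₀]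
  {v : Valuation K Γ₀} {a b : K}

lemma integralModel_legW (ha : v a ≤ 1) (hb : v b ≤ 1) : IntegralModel v (legW a b) where
  a₁ := by simp
  a₂ := by simpa using ha
  a₃ := by simp
  a₄ := by simpa using hb
  a₆ := by simp

lemma v_rhs_le_one (ha : v a ≤ 1) (hb : v b ≤ 1) {x : K} (hx : v x ≤ 1) :
    v (x ^ 3 + a * x ^ 2 + b * x) ≤ 1 := by
  apply Valuation.map_add_le
  · apply Valuation.map_add_le
    · rw [map_pow]; exact pow_le_one₀ zero_le hx
    · rw [map_mul, map_pow]
      exact mul_le_one₀ ha (pow_nonneg zero_le 2) (pow_le_one₀ zero_le hx)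
  · rw [map_mul]
    exact mul_le_one₀ hb zero_le hx

lemma v_y_le_one (ha : v a ≤ 1) (hb : v b ≤ 1) {x y : K}
    (hxy : y ^ 2 = x ^ 3 + a * x ^ 2 + b * x) (hx : v x ≤ 1) : v y ≤ 1 := by
  apply le_of_pow_le_pow_left₀ (n := 2) (by norm_num) zero_le
  rw [one_pow, ← map_pow, hxy]
  exact v_rhs_le_one ha hb hx

/-- With good reduction, the reduction of every integral point is nonsingular. -/
lemma nonsingular_reduction_good (ha : v a ≤ 1) (hb : v b = 1) (hd : v (a ^ 2 - 4 * b) = 1)
    (h2 : v 2 = 1) {x y : K} (hxy : y ^ 2 = x ^ 3 + a * x ^ 2 + b * x) (hx : v x ≤ 1) :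
    v ((legW a b).a₁ * y - (3 * x ^ 2 + 2 * (legW a b).a₂ * x + (legW a b).a₄)) = 1 ∨
      v (2 * y + (legW a b).a₁ * x + (legW a b).a₃) = 1 := by
  have hy1 : v y ≤ 1 := v_y_le_one ha hb.le hxy hx
  simp only [legW_a₁, legW_a₂, legW_a₃, legW_a₄, zero_mul, zero_sub, add_zero, Valuation.map_neg]
  by_cases hy : v y < 1
  · left
    have h3 : v (3 : K) ≤ 1 := by
      have : (3 : K) = 2 + 1 := by norm_num
      rw [this]
      exact Valuation.map_add_le _ h2.le (by rw [map_one])
    have h3x2a : v (3 * x + 2 * a) ≤ 1 := by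
      apply Valuation.map_add_le
      · rw [map_mul]; exact mul_le_one₀ h3 zero_le hx
      · rw [map_mul, h2, one_mul]; exact ha
    have hD1 : v (3 * x ^ 2 + 2 * a * x + b) ≤ 1 := by
      have e : 3 * x ^ 2 + 2 * a * x + b = x * (3 * x + 2 * a) + b := by ring
      rw [e]
      apply Valuation.map_add_le _ _ hb.le
      rw [map_mul]; exact mul_le_one₀ hx zero_le h3x2a
    by_contra hne
    have hD : v (3 * x ^ 2 + 2 * a * x + b) < 1 := lt_of_le_of_ne hD1 hne
    rcases lt_or_eq_of_le hx with hx1 | hx1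
    · -- `v x < 1`
      have e : 3 * x ^ 2 + 2 * a * x + b = x * (3 * x + 2 * a) + b := by ring
      have hsm : v (x * (3 * x + 2 * a)) < v b := by
        rw [hb, map_mul]
        calc v x * v (3 * x + 2 * a) ≤ v x * 1 := mul_le_mul_right h3x2a _
          _ = v x := mul_one _
          _ < 1 := hx1
      rw [e, Valuation.map_add_eq_of_lt_right _ hsm, hb] at hD
      exact lt_irrefl _ hD
    · -- `v x = 1`
      have hg : v (x ^ 2 + a * x + b) < 1 := by
        have e : x * (x ^ 2 + a * x + b) = y ^ 2 := by rw [hxy]; ring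
        have : v (x * (x ^ 2 + a * x + b)) < 1 := by
          rw [e, map_pow]; exact pow_lt_one₀ zero_le hy (by norm_num)
        rwa [map_mul, hx1, one_mul] at this
      have hg' : v (2 * x + a) < 1 := by
        have e : x * (2 * x + a) = (3 * x ^ 2 + 2 * a * x + b) - (x ^ 2 + a * x + b) := by ring
        have : v (x * (2 * x + a)) < 1 := by rw [e]; exact Valuation.map_sub_lt _ hD hg
        rwa [map_mul, hx1, one_mul] at this
      have e : a ^ 2 - 4 * b = (2 * x + a) ^ 2 - 4 * (x ^ 2 + a * x + b) := by ring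
      have h4 : v (4 : K) ≤ 1 := by
        have : (4 : K) = 2 * 2 := by norm_num
        rw [this, map_mul, h2, one_mul]
      have : v (a ^ 2 - 4 * b) < 1 := by
        rw [e]
        apply Valuation.map_sub_lt
        · rw [map_pow]; exact pow_lt_one₀ zero_le hg' (by norm_num)
        · rw [map_mul]
          calc v 4 * v (x ^ 2 + a * x + b) ≤ 1 * v (x ^ 2 + a * x + b) := mul_le_mul_left h4 _
            _ = v (x ^ 2 + a * x + b) := one_mul _
            _ < 1 := hg
      rw [hd] at this
      exact lt_irrefl _ this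
  · right
    rw [map_mul, h2, one_mul]
    exact le_antisymm hy1 (not_lt.mp hy)

/-- **Good reduction**: a ring endomorphism `σ` preserving the valuation ring and acting
trivially on the residue field acts trivially on the `p`-torsion (`v p = 1`). -/
theorem good_fixed (ha : v a ≤ 1) (hb : v b = 1) (hd : v (a ^ 2 - 4 * b) = 1) (h2 : v 2 = 1)
    (σ : K →+* K) (hσA : ∀ x, v (σ x) ≤ 1 ↔ v x ≤ 1)
    (hσ1 : ∀ x, v x ≤ 1 → v (σ x - x) < 1)
    (τ : (legW a b).toAffine.Point →+ (legW a b).toAffine.Point)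
    (hτ : ∀ (x y : K) (hP : (legW a b).toAffine.Nonsingular x y),
      ∃ hP' : (legW a b).toAffine.Nonsingular (σ x) (σ y), τ (.some x y hP) = .some (σ x) (σ y) hP')
    {p : ℕ} (hpv : v (p : K) = 1)
    (P : (legW a b).toAffine.Point) (hP : p • P = 0) : τ P = P := by
  have hW := integralModel_legW (v := v) ha hb.le
  have hQ : InE1 v (legW a b) (τ P - P) := by
    rcases hPeq : P with _ | ⟨x, y, hP'⟩
    · have : (Point.zero : (legW a b).toAffine.Point) = 0 := rfl
      rw [this, map_zero, sub_zero]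
      exact inE1_zero
    · obtain ⟨hP'', eP⟩ := hτ x y hP'
      rw [eP]
      rcases lt_or_ge 1 (v x) with hlt | hle
      · rw [sub_eq_add_neg]
        apply InE1.add hW
        · rw [inE1_some]; exact one_lt_sigma hσA hlt
        · exact InE1.neg ((inE1_some hP').mpr hlt)
      · have hσx : v (σ x) ≤ 1 := (hσA x).mpr hle
        have e1 := (leg_equation_iff a b x y).mp hP'.1
        have e2 := (leg_equation_iff a b (σ x) (σ y)).mp hP''.1
        have hy1 := v_y_le_one ha hb.le e1 hle
        have hy1' := v_y_le_one ha hb.le e2 hσx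
        exact inE1_sub_of_congr hW hP'' hP' hσx hy1' hle hy1 (hσ1 x hle) (hσ1 y hy1)
          (nonsingular_reduction_good ha hb hd h2 e2 hσx)
  have hpQ : p • (τ P - P) = 0 := by
    rw [smul_sub, ← map_nsmul, hP, map_zero, sub_zero]
  have := InE1.eq_zero_of_nsmul hW hQ hpv hpQ
  exact sub_eq_zero.mp this

end

end Fermat.Agent.S05lib
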