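/-
S05 library: unpacking membership in the inertia subgroup of a valuation subring.
-/
import Mathlib
import Fermat.Prelude.Def_FLTPrelim_Ramification

set_option autoImplicit false

namespace Fermat.Agent.S05lib

open scoped Pointwise

variable {K L : Type*} [Field K] [Field L] [Algebra K L]

/-- An element of the inertia subgroup of `A` preserves `A` and acts trivially on the residue
field. -/
theorem inertia_facts (A : ValuationSubring L) (σ : L ≃ₐ[K] L)
    (hσ : σ ∈ A.inertiaSubgroupIn K) :
    (∀ x : L, A.valuation (σ x) ≤ 1 ↔ A.valuation x ≤ 1) ∧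
      (∀ x : L, A.valuation x ≤ 1 → A.valuation (σ x - x) < 1) := by
  obtain ⟨g, hg, rfl⟩ := Subgroup.mem_map.mp hσ
  have hstab : (g : L ≃ₐ[K] L) • A = A := MulAction.mem_stabilizer_iff.mp g.2
  constructor
  · intro x
    rw [A.valuation_le_one_iff, A.valuation_le_one_iff]
    have := ValuationSubring.smul_mem_pointwise_smul_iff (g := (g : L ≃ₐ[K] L)) (S := A) (x := x)
    rw [hstab] at this
    exact this
  · intro x hx
    rw [A.valuation_le_one_iff] at hx
    have hker : MulSemiringAction.toRingAut (A.decompositionSubgroup K)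
        (IsLocalRing.ResidueField A) g = 1 := MonoidHom.mem_ker.mp hg
    have h1 := congrArg (fun f => f (IsLocalRing.residue A ⟨x, hx⟩)) hker
    simp only [MulSemiringAction.toRingAut_apply, RingAut.one_apply] at h1
    have h2 : (MulSemiringAction.toRingEquiv (A.decompositionSubgroup K)
        (IsLocalRing.ResidueField A) g) (IsLocalRing.residue A ⟨x, hx⟩) =
        IsLocalRing.residue A (g • ⟨x, hx⟩) := rfl
    rw [h2] at h1
    have h3 : IsLocalRing.residue A (g • (⟨x, hx⟩ : A) - ⟨x, hx⟩) = 0 := by
      rw [map_sub, h1, sub_self]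
    have h4 : (g • (⟨x, hx⟩ : A) - ⟨x, hx⟩) ∈ IsLocalRing.maximalIdeal A :=
      (IsLocalRing.residue_eq_zero_iff _).mp h3
    have h5 := (A.valuation_lt_one_iff _).mp h4
    exact h5

end Fermat.Agent.S05lib
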