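/-
S05 library: points of `y² = x³ + a x² + b x` near the node (`v a = 1`, `v b < 1`):
the component function and its additivity up to powers of `v b ^ 2`.
-/
import Mathlib
import Fermat.Agent.S05lib.LegCurve

set_option autoImplicit false
set_option linter.unusedSectionVars false

namespace Fermat.Agent.S05lib

open WeierstrassCurve WeierstrassCurve.Affine

section node

variable {K : Type*} [Field K] [DecidableEq K] {Γ₀ : Type*} [LinearOrderedCommGroupWithZero Γ₀]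
  (v : Valuation K Γ₀) (a b β : K)

/-- The standing hypotheses for the analysis near the node. -/
structure NodeData : Prop where
  hb : v b < 1
  hb0 : b ≠ 0
  hβ : β ^ 2 = a
  hβ1 : v β = 1
  h2 : v 2 = 1

variable {v a b β}

namespace NodeData

variable (h : NodeData v a b β)
include h

lemma va : v a = 1 := by rw [← h.hβ, map_pow, h.hβ1, one_pow]

lemma vb_pos : 0 < v b := zero_lt_iff.mpr ((Valuation.ne_zero_iff v).mpr h.hb0)

lemma v2β (x : K) : v (2 * β * x) = v x := by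
  rw [map_mul, map_mul, h.h2, h.hβ1, one_mul, one_mul]

/-- Factorisation `(y - βx)(y + βx) = x (x² + b)` on the curve. -/
lemma factor {x y : K} (hxy : y ^ 2 = x ^ 3 + a * x ^ 2 + b * x) :
    (y - β * x) * (y + β * x) = x * (x ^ 2 + b) := by
  have := h.hβ
  linear_combination hxy - x ^ 2 * this

/-- Near the node (`v b < v x < 1`), the product of the two branch functions is small. -/
lemma near_mul_lt {x y : K} (hxy : y ^ 2 = x ^ 3 + a * x ^ 2 + b * x) (hx1 : v x < 1)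
    (hxb : v b < v x) : v ((y - β * x) * (y + β * x)) < v x * v x := by
  rw [h.factor hxy, map_mul]
  have hx0 : 0 < v x := lt_of_le_of_lt zero_le hxb
  have : v (x ^ 2 + b) < v x := by
    apply Valuation.map_add_lt _ _ hxb
    rw [map_pow, pow_two]
    calc v x * v x < v x * 1 := (mul_lt_mul_iff_right₀ hx0).mpr hx1
      _ = v x := mul_one _
  exact (mul_lt_mul_iff_right₀ hx0).mpr this

lemma near_plus_or_minus {x y : K} (hxy : y ^ 2 = x ^ 3 + a * x ^ 2 + b * x) (hx1 : v x < 1)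
    (hxb : v b < v x) : v (y - β * x) < v x ∨ v (y + β * x) < v x := by
  by_contra hcon
  push Not at hcon
  have := h.near_mul_lt hxy hx1 hxb
  rw [map_mul] at this
  exact absurd this (not_lt.mpr (mul_le_mul' hcon.1 hcon.2))

lemma not_plus_and_minus {x y : K} (hp : v (y - β * x) < v x) (hm : v (y + β * x) < v x) :
    False := by
  have : v ((y + β * x) - (y - β * x)) < v x := Valuation.map_sub_lt _ hm hp
  have h2 : (y + β * x) - (y - β * x) = 2 * β * x := by ring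
  rw [h2, h.v2β] at this
  exact lt_irrefl _ this

/-- On the plus branch, `v (y + βx) = v x`. -/
lemma v_plus_other {x y : K} (hp : v (y - β * x) < v x) : v (y + β * x) = v x := by
  have h2 : y + β * x = (y - β * x) + 2 * β * x := by ring
  rw [h2, Valuation.map_add_eq_of_lt_right _ (by rwa [h.v2β]), h.v2β]

/-- On the minus branch, `v (y - βx) = v x`. -/
lemma v_minus_other {x y : K} (hm : v (y + β * x) < v x) : v (y - β * x) = v x := by
  have h2 : y - β * x = (y + β * x) - 2 * β * x := by ring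
  rw [h2, Valuation.map_sub_eq_of_lt_right _ (by rwa [h.v2β]), h.v2β]

/-- On the plus branch, `v y = v x`. -/
lemma v_y_of_plus {x y : K} (hp : v (y - β * x) < v x) : v y = v x := by
  have h2 : y = (y - β * x) + β * x := by ring
  have hβx : v (β * x) = v x := by rw [map_mul, h.hβ1, one_mul]
  rw [h2, Valuation.map_add_eq_of_lt_right _ (by rwa [hβx]), hβx]

end NodeData

/-! ### The component function -/

variable (v a b β) in
/-- The component function on points of `y² = x³ + a x² + b x` (a lift to `Γ₀` of the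
class in `Γ₀ˣ / ⟨v b ^ 2⟩`): `1` on points with nonsingular reduction, `v b` on the far
component (`v x ≤ v b`), `v x` on the plus branch near the node, `(v x)⁻¹` on the minus
branch. -/
noncomputable def comp : (legW a b).toAffine.Point → Γ₀
  | .zero => 1
  | .some x y _ => if 1 ≤ v x then 1 else if v x ≤ v b then v b
      else if v (y - β * x) < v x then v x else (v x)⁻¹

variable (v b) in
/-- Congruence modulo powers of `v b ^ 2`. -/
def Cong (γ δ : Γ₀) : Prop := ∃ m : ℤ, γ = δ * (v b) ^ (2 * m)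

lemma Cong.refl (γ : Γ₀) : Cong v b γ γ := ⟨0, by simp⟩

lemma Cong.of_eq {γ δ : Γ₀} (h : γ = δ) : Cong v b γ δ := h ▸ Cong.refl γ

lemma Cong.trans (hb0 : b ≠ 0) {γ δ η : Γ₀} (h₁ : Cong v b γ δ) (h₂ : Cong v b δ η) :
    Cong v b γ η := by
  obtain ⟨m, rfl⟩ := h₁
  obtain ⟨n, rfl⟩ := h₂
  refine ⟨n + m, ?_⟩
  have : v b ≠ 0 := (Valuation.ne_zero_iff v).mpr hb0
  rw [mul_add, zpow_add₀ this, mul_assoc]

lemma Cong.symm (hb0 : b ≠ 0) {γ δ : Γ₀} (h₁ : Cong v b γ δ) : Cong v b δ γ := by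
  obtain ⟨m, rfl⟩ := h₁
  refine ⟨-m, ?_⟩
  have : v b ≠ 0 := (Valuation.ne_zero_iff v).mpr hb0
  rw [mul_assoc, ← zpow_add₀ this]
  simp

lemma Cong.mul (hb0 : b ≠ 0) {γ δ γ' δ' : Γ₀} (h₁ : Cong v b γ δ) (h₂ : Cong v b γ' δ') :
    Cong v b (γ * γ') (δ * δ') := by
  obtain ⟨m, rfl⟩ := h₁
  obtain ⟨n, rfl⟩ := h₂
  refine ⟨m + n, ?_⟩
  have : v b ≠ 0 := (Valuation.ne_zero_iff v).mpr hb0
  rw [mul_add, zpow_add₀ this, mul_mul_mul_comm]

lemma Cong.mul_right (hb0 : b ≠ 0) {γ δ : Γ₀} (η : Γ₀) (h₁ : Cong v b γ δ) :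
    Cong v b (γ * η) (δ * η) := Cong.mul hb0 h₁ (Cong.refl η)

/-- `v b * v b ≡ 1`. -/
lemma Cong.sq_one : Cong v b (v b * v b) 1 := ⟨1, by simp [pow_two]⟩

lemma Cong.one_sq (hb0 : b ≠ 0) : Cong v b 1 (v b * v b) := Cong.sq_one.symm hb0

/-! ### Types of points -/

variable (v a b) in
/-- Points with nonsingular reduction. -/
def IsE0 : (legW a b).toAffine.Point → Prop
  | .zero => True
  | .some x _ _ => 1 ≤ v x

variable (v a b) in
/-- Points on the far component. -/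
def IsFar : (legW a b).toAffine.Point → Prop
  | .zero => False
  | .some x _ _ => v x ≤ v b

variable (v a b β) in
/-- Points near the node on the plus branch. -/
def IsPlus : (legW a b).toAffine.Point → Prop
  | .zero => False
  | .some x y _ => v b < v x ∧ v x < 1 ∧ v (y - β * x) < v x

variable (v a b β) in
/-- Points near the node on the minus branch. -/
def IsMinus : (legW a b).toAffine.Point → Prop
  | .zero => False
  | .some x y _ => v b < v x ∧ v x < 1 ∧ v (y + β * x) < v x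

namespace NodeData

variable (h : NodeData v a b β)
include h

lemma classify (P : (legW a b).toAffine.Point) :
    IsE0 v a b P ∨ IsFar v a b P ∨ IsPlus v a b β P ∨ IsMinus v a b β P := by
  rcases P with _ | ⟨x, y, hP⟩
  · exact Or.inl trivial
  · by_cases h1 : 1 ≤ v x
    · exact Or.inl h1
    · by_cases h2 : v x ≤ v b
      · exact Or.inr (Or.inl h2)
      · push Not at h1 h2
        have heq := (leg_equation_iff a b x y).mp hP.1
        rcases h.near_plus_or_minus heq h1 h2 with hp | hm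
        · exact Or.inr (Or.inr (Or.inl ⟨h2, h1, hp⟩))
        · exact Or.inr (Or.inr (Or.inr ⟨h2, h1, hm⟩))

lemma comp_of_E0 {P : (legW a b).toAffine.Point} (hP : IsE0 v a b P) : comp v a b β P = 1 := by
  rcases P with _ | ⟨x, y, hP'⟩
  · rfl
  · simp only [comp]
    have hP2 : 1 ≤ v x := hP
    rw [if_pos hP2]

lemma comp_of_far {P : (legW a b).toAffine.Point} (hP : IsFar v a b P) :
    comp v a b β P = v b := by
  rcases P with _ | ⟨x, y, hP'⟩
  · exact absurd hP id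
  · simp only [comp]
    have hP2 : v x ≤ v b := hP
    rw [if_neg (not_le.mpr (lt_of_le_of_lt hP2 h.hb)), if_pos hP2]

lemma comp_of_plus {x y : K} {hP' : (legW a b).toAffine.Nonsingular x y}
    (hP : IsPlus v a b β (.some x y hP')) : comp v a b β (.some x y hP') = v x := by
  obtain ⟨h1, h2, h3⟩ := hP
  simp only [comp]
  rw [if_neg (not_le.mpr h2), if_neg (not_le.mpr h1), if_pos h3]

lemma comp_of_minus {x y : K} {hP' : (legW a b).toAffine.Nonsingular x y}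
    (hP : IsMinus v a b β (.some x y hP')) : comp v a b β (.some x y hP') = (v x)⁻¹ := by
  obtain ⟨h1, h2, h3⟩ := hP
  simp only [comp]
  rw [if_neg (not_le.mpr h2), if_neg (not_le.mpr h1),
    if_neg (fun hp => h.not_plus_and_minus hp h3)]

end NodeData

/-! ### Translation by the 2-torsion point `T = (0, 0)` -/

variable (a b) in
lemma nonsingular_T (hb0 : b ≠ 0) : (legW a b).toAffine.Nonsingular 0 0 := by
  rw [leg_nonsingular_iff]
  refine ⟨by ring, Or.inl ?_⟩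
  simpa using hb0

variable (a b) in
/-- The 2-torsion point `(0, 0)`. -/
noncomputable def Tpt (hb0 : b ≠ 0) : (legW a b).toAffine.Point :=
  .some 0 0 (nonsingular_T a b hb0)

lemma Tpt_add_self (hb0 : b ≠ 0) : Tpt a b hb0 + Tpt a b hb0 = 0 :=
  Point.add_of_Y_eq rfl (by simp [leg_negY])

lemma add_Tpt (hb0 : b ≠ 0) {x y : K} (hP : (legW a b).toAffine.Nonsingular x y) (hx : x ≠ 0) :
    ∃ (x₃ y₃ : K) (h₃ : (legW a b).toAffine.Nonsingular x₃ y₃),
      Point.some x y hP + Tpt a b hb0 = Point.some x₃ y₃ h₃ ∧ x * x₃ = b ∧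
        x * y₃ = -(y * x₃) := by
  have hxy : ¬(x = 0 ∧ y = (legW a b).toAffine.negY 0 0) := fun hh => hx hh.1
  obtain ⟨ℓ, ν, x₃, y₃, h₃, hadd, hy₁, hy₂, hy₃, hV1, -, -⟩ :=
    leg_add_some a b hP (nonsingular_T a b hb0) hxy
  have hν : ν = 0 := by linear_combination -hy₂
  subst hν
  have heq := (leg_equation_iff a b x y).mp hP.1
  refine ⟨x₃, y₃, h₃, hadd, ?_, ?_⟩
  · apply mul_left_cancel₀ hx
    have hx₃ : x₃ = ℓ ^ 2 - a - x := by linear_combination hV1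
    rw [hx₃]
    have hy : y = ℓ * x := by linear_combination hy₁
    rw [hy] at heq
    linear_combination heq
  · rw [hy₃, hy₁]; ring

namespace NodeData

variable (h : NodeData v a b β)
include h

lemma eq_Tpt_of_x_eq_zero {x y : K} (hP : (legW a b).toAffine.Nonsingular x y) (hx : x = 0) :
    Point.some x y hP = Tpt a b h.hb0 := by
  subst hx
  have heq := (leg_equation_iff a b 0 y).mp hP.1
  have hy : y = 0 := by
    have : y ^ 2 = 0 := by rw [heq]; ring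
    exact pow_eq_zero_iff (two_ne_zero) |>.mp this
  subst hy
  rfl

/-- Behaviour of the types under translation by `T`, together with the valuation of the new
`x`-coordinate. -/
lemma add_T_some {x y : K} (hP : (legW a b).toAffine.Nonsingular x y) (hx : x ≠ 0) :
    ∃ (x₃ y₃ : K) (h₃ : (legW a b).toAffine.Nonsingular x₃ y₃),
      Point.some x y hP + Tpt a b h.hb0 = Point.some x₃ y₃ h₃ ∧ v x * v x₃ = v b ∧
      (IsE0 v a b (.some x y hP) → IsFar v a b (.some x₃ y₃ h₃)) ∧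
      (IsFar v a b (.some x y hP) → IsE0 v a b (.some x₃ y₃ h₃)) ∧
      (IsPlus v a b β (.some x y hP) → IsMinus v a b β (.some x₃ y₃ h₃)) ∧
      (IsMinus v a b β (.some x y hP) → IsPlus v a b β (.some x₃ y₃ h₃)) := by
  obtain ⟨x₃, y₃, h₃, hadd, hx₃, hy₃⟩ := add_Tpt h.hb0 hP hx
  have hvx : v x * v x₃ = v b := by rw [← map_mul, hx₃]
  have hx0 : 0 < v x := zero_lt_iff.mpr ((Valuation.ne_zero_iff v).mpr hx)
  have hx₃0 : x₃ ≠ 0 := by
    rintro rfl
    exact h.hb0 (by rw [← hx₃, mul_zero])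
  have hx₃pos : 0 < v x₃ := zero_lt_iff.mpr ((Valuation.ne_zero_iff v).mpr hx₃0)
  have hplus : x * (y₃ + β * x₃) = -(x₃ * (y - β * x)) := by linear_combination hy₃
  have hminus : x * (y₃ - β * x₃) = -(x₃ * (y + β * x)) := by linear_combination hy₃
  have near : v b < v x → v x < 1 → v b < v x₃ ∧ v x₃ < 1 := by
    intro h1 h2
    constructor
    · calc v b = v x * v x₃ := hvx.symm
        _ < 1 * v x₃ := (mul_lt_mul_iff_left₀ hx₃pos).mpr h2
        _ = v x₃ := one_mul _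
    · apply (mul_lt_mul_iff_right₀ hx0).mp
      rw [hvx, mul_one]
      exact h1
  refine ⟨x₃, y₃, h₃, hadd, hvx, ?_, ?_, ?_, ?_⟩
  · intro hE
    have hE' : 1 ≤ v x := hE
    show v x₃ ≤ v b
    calc v x₃ = 1 * v x₃ := (one_mul _).symm
      _ ≤ v x * v x₃ := mul_le_mul_left hE' _
      _ = v b := hvx
  · intro hF
    have hF' : v x ≤ v b := hF
    show 1 ≤ v x₃
    apply (mul_le_mul_iff_right₀ hx0).mp
    rw [hvx, mul_one]
    exact hF'
  · rintro ⟨h1, h2, h3⟩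
    obtain ⟨n1, n2⟩ := near h1 h2
    refine ⟨n1, n2, ?_⟩
    apply (mul_lt_mul_iff_right₀ hx0).mp
    rw [← map_mul, hplus, Valuation.map_neg, map_mul, mul_comm (v x)]
    exact (mul_lt_mul_iff_right₀ hx₃pos).mpr h3
  · rintro ⟨h1, h2, h3⟩
    obtain ⟨n1, n2⟩ := near h1 h2
    refine ⟨n1, n2, ?_⟩
    apply (mul_lt_mul_iff_right₀ hx0).mp
    rw [← map_mul, hminus, Valuation.map_neg, map_mul, mul_comm (v x)]
    exact (mul_lt_mul_iff_right₀ hx₃pos).mpr h3

end NodeData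

namespace NodeData

variable (h : NodeData v a b β)
include h

lemma isFar_Tpt : IsFar v a b (Tpt a b h.hb0) := by
  show v 0 ≤ v b
  rw [map_zero]; exact zero_le

lemma comp_add_T (P : (legW a b).toAffine.Point) :
    Cong v b (comp v a b β (P + Tpt a b h.hb0)) (comp v a b β P * v b) := by
  have hb0 := h.hb0
  have hvb0 : v b ≠ 0 := (Valuation.ne_zero_iff v).mpr hb0
  rcases P with _ | ⟨x, y, hP⟩
  · change Cong v b (comp v a b β (0 + Tpt a b h.hb0)) (comp v a b β 0 * v b)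
    rw [zero_add, h.comp_of_far h.isFar_Tpt, h.comp_of_E0 (P := 0) trivial, one_mul]
    exact Cong.refl _
  · by_cases hx : x = 0
    · rw [h.eq_Tpt_of_x_eq_zero hP hx, Tpt_add_self, h.comp_of_far h.isFar_Tpt,
        h.comp_of_E0 (P := 0) trivial]
      exact Cong.one_sq hb0
    · obtain ⟨x₃, y₃, h₃, hadd, hvx, hE, hF, hPl, hMi⟩ := h.add_T_some hP hx
      rw [hadd]
      have hx0 : v x ≠ 0 := (Valuation.ne_zero_iff v).mpr hx
      rcases h.classify (.some x y hP) with hc | hc | hc | hc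
      · rw [h.comp_of_far (hE hc), h.comp_of_E0 hc, one_mul]
        exact Cong.refl _
      · rw [h.comp_of_E0 (hF hc), h.comp_of_far hc]
        exact Cong.one_sq hb0
      · rw [h.comp_of_minus (hPl hc), h.comp_of_plus hc]
        refine ⟨-1, ?_⟩
        rw [← hvx]
        have hx₃0 : v x₃ ≠ 0 := right_ne_zero_of_mul (hvx ▸ hvb0)
        simp only [mul_neg, mul_one, zpow_neg]
        field_simp
      · rw [h.comp_of_plus (hMi hc), h.comp_of_minus hc]
        refine ⟨0, ?_⟩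
        rw [← hvx]
        simp only [mul_zero, zpow_zero, mul_one]
        field_simp

/-- Every point is, up to translation by `T`, in `E₀` or on the plus branch. -/
lemma good_or_good_add_T (P : (legW a b).toAffine.Point) :
    (IsE0 v a b P ∨ IsPlus v a b β P) ∨
      (IsE0 v a b (P + Tpt a b h.hb0) ∨ IsPlus v a b β (P + Tpt a b h.hb0)) := by
  rcases h.classify P with hc | hc | hc | hc
  · exact Or.inl (Or.inl hc)
  · right; left
    rcases P with _ | ⟨x, y, hP⟩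
    · exact absurd hc id
    · by_cases hx : x = 0
      · rw [h.eq_Tpt_of_x_eq_zero hP hx, Tpt_add_self]; trivial
      · obtain ⟨x₃, y₃, h₃, hadd, hvx, hE, hF, hPl, hMi⟩ := h.add_T_some hP hx
        rw [hadd]; exact hF hc
  · exact Or.inl (Or.inr hc)
  · right; right
    rcases P with _ | ⟨x, y, hP⟩
    · exact absurd hc id
    · have hx : x ≠ 0 := by
        rintro rfl
        obtain ⟨h1, -, -⟩ := hc
        rw [map_zero] at h1
        exact not_lt.mpr zero_le h1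
      obtain ⟨x₃, y₃, h₃, hadd, hvx, hE, hF, hPl, hMi⟩ := h.add_T_some hP hx
      rw [hadd]; exact hMi hc

end NodeData

/-! ### Valuation estimates for the chord-tangent law -/

namespace NodeData

variable (h : NodeData v a b β)
include h

lemma v_rhs_le {x : K} (hx : 1 ≤ v x) : v (x ^ 3 + a * x ^ 2 + b * x) ≤ v x ^ 3 := by
  apply Valuation.map_add_le
  · apply Valuation.map_add_le
    · rw [map_pow]
    · rw [map_mul, h.va, one_mul, map_pow]
      exact pow_le_pow_right₀ hx (by norm_num)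
  · rw [map_mul]
    calc v b * v x ≤ 1 * v x := mul_le_mul_left h.hb.le _
      _ = v x ^ 1 := by rw [one_mul, pow_one]
      _ ≤ v x ^ 3 := pow_le_pow_right₀ hx (by norm_num)

lemma v_sq_add_b {x : K} (hx : 1 ≤ v x) : v (x ^ 2 + b) = v x ^ 2 := by
  have : v b < v (x ^ 2) := by
    rw [map_pow]
    exact lt_of_lt_of_le h.hb (one_le_pow₀ hx)
  rw [Valuation.map_add_eq_of_lt_left _ this, map_pow]

/-- For a point with `1 ≤ v x`, both branch functions have the same valuation,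
with square `v x ^ 3`. -/
lemma v_branch_sq_of_E0 {x y : K} (hxy : y ^ 2 = x ^ 3 + a * x ^ 2 + b * x) (hx : 1 ≤ v x) :
    v (y + β * x) ^ 2 = v x ^ 3 ∧ v (y - β * x) ^ 2 = v x ^ 3 := by
  have hx0 : 0 < v x := lt_of_lt_of_le zero_lt_one hx
  have hprod : v (y - β * x) * v (y + β * x) = v x ^ 3 := by
    rw [← map_mul, h.factor hxy, map_mul, h.v_sq_add_b hx]
    rw [pow_succ' (v x) 2]
  have heq : v (y + β * x) = v (y - β * x) := by
    by_contra hne
    have hmax : v ((y + β * x) + (-(y - β * x))) = max (v (y + β * x)) (v (-(y - β * x))) :=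
      Valuation.map_add_of_distinct_val _ (by rwa [Valuation.map_neg])
    have h2 : (y + β * x) + (-(y - β * x)) = 2 * β * x := by ring
    rw [h2, h.v2β, Valuation.map_neg] at hmax
    rcases le_total (v (y + β * x)) (v (y - β * x)) with hle | hle
    · rw [max_eq_right hle] at hmax
      -- v (y - βx) = v x, so v (y + βx) = v x ^ 2 ≥ v x
      rw [← hmax] at hprod
      have : v (y + β * x) = v x ^ 2 := by
        apply (mul_right_inj' hx0.ne').mp
        rw [hprod, pow_succ' (v x) 2]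
      have h3 : v x ^ 2 ≤ v x := by rw [← this, hmax]; exact hle
      have h4 : v x ≤ v x ^ 2 := by
        calc v x = v x ^ 1 := (pow_one _).symm
          _ ≤ v x ^ 2 := pow_le_pow_right₀ hx (by norm_num)
      exact hne (by rw [this, ← hmax]; exact le_antisymm h3 h4)
    · rw [max_eq_left hle] at hmax
      rw [← hmax, mul_comm] at hprod
      have : v (y - β * x) = v x ^ 2 := by
        apply (mul_right_inj' hx0.ne').mp
        rw [hprod, pow_succ' (v x) 2]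
      have h3 : v x ^ 2 ≤ v x := by rw [← this, hmax]; exact hle
      have h4 : v x ≤ v x ^ 2 := by
        calc v x = v x ^ 1 := (pow_one _).symm
          _ ≤ v x ^ 2 := pow_le_pow_right₀ hx (by norm_num)
      exact hne (by rw [this, ← hmax]; exact (le_antisymm h3 h4).symm)
  constructor
  · rw [pow_two, ← hprod, heq]
  · rw [pow_two, ← hprod, heq]

end NodeData

namespace NodeData

variable (h : NodeData v a b β)
include h

/-- Both summands in `E₀`: the sum is in `E₀`. -/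
lemma EE_estimate {x₁ y₁ x₂ y₂ x₃ ν : K} (e₁ : y₁ ^ 2 = x₁ ^ 3 + a * x₁ ^ 2 + b * x₁)
    (e₂ : y₂ ^ 2 = x₂ ^ 3 + a * x₂ ^ 2 + b * x₂) (hx₁ : 1 ≤ v x₁) (hx₂ : 1 ≤ v x₂)
    (hV3 : x₁ * x₂ * x₃ = ν ^ 2)
    (hR12 : ν * (y₁ * x₂ + y₂ * x₁) = x₁ * x₂ * (b - x₁ * x₂)) : 1 ≤ v x₃ := by
  set P := v x₁ * v x₂ with hP
  have hP1 : 1 ≤ P := one_le_mul_of_one_le_of_one_le hx₁ hx₂
  have hP0 : 0 < P := lt_of_lt_of_le zero_lt_one hP1
  have h1 : v (b - x₁ * x₂) = P := by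
    rw [Valuation.map_sub_eq_of_lt_right, map_mul]
    rw [map_mul]; exact lt_of_lt_of_le h.hb hP1
  have h2 : v ν * v (y₁ * x₂ + y₂ * x₁) = P * P := by
    rw [← map_mul, hR12, map_mul, map_mul, h1]
  have hA : v (y₁ * x₂) ^ 2 ≤ P ^ 3 := by
    rw [map_mul, mul_pow, ← map_pow, e₁, hP, mul_pow]
    apply mul_le_mul' (h.v_rhs_le hx₁)
    exact pow_le_pow_right₀ hx₂ (by norm_num)
  have hB : v (y₂ * x₁) ^ 2 ≤ P ^ 3 := by
    rw [map_mul, mul_pow, ← map_pow, e₂, hP, mul_pow, mul_comm (v x₁ ^ 3)]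
    apply mul_le_mul' (h.v_rhs_le hx₂)
    exact pow_le_pow_right₀ hx₁ (by norm_num)
  have h3 : v (y₁ * x₂ + y₂ * x₁) ^ 2 ≤ P ^ 3 := by
    rcases le_total (v (y₁ * x₂)) (v (y₂ * x₁)) with hle | hle
    · exact le_trans (pow_le_pow_left₀ zero_le (Valuation.map_add_le _ hle le_rfl) 2) hB
    · exact le_trans (pow_le_pow_left₀ zero_le (Valuation.map_add_le _ le_rfl hle) 2) hA
  have h4 : P * v x₃ = v ν ^ 2 := by
    rw [← map_pow, ← hV3, map_mul, map_mul]
  have hs0 : 0 < v (y₁ * x₂ + y₂ * x₁) := by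
    rw [zero_lt_iff]
    intro h0
    rw [h0, mul_zero] at h2
    exact (mul_pos hP0 hP0).ne' h2.symm
  have h5 : v x₃ * v (y₁ * x₂ + y₂ * x₁) ^ 2 = P ^ 3 := by
    apply (mul_right_inj' hP0.ne').mp
    rw [← mul_assoc, h4, ← mul_pow, h2]
    rw [pow_succ' P 2, pow_two, pow_two]
    simp only [mul_assoc]
  by_contra hlt
  push Not at hlt
  have : v x₃ * v (y₁ * x₂ + y₂ * x₁) ^ 2 < P ^ 3 := by
    calc v x₃ * v (y₁ * x₂ + y₂ * x₁) ^ 2 < 1 * v (y₁ * x₂ + y₂ * x₁) ^ 2 :=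
          (mul_lt_mul_iff_left₀ (pow_pos hs0 2)).mpr hlt
      _ = v (y₁ * x₂ + y₂ * x₁) ^ 2 := one_mul _
      _ ≤ P ^ 3 := h3
  exact this.ne h5

end NodeData

namespace NodeData

variable (h : NodeData v a b β)
include h

/-- First summand in `E₀` (affine), second summand on the plus branch: the sum is on the
plus branch with the same `v x` as the second summand. -/
lemma EP_estimate {x₁ y₁ x₂ y₂ x₃ y₃ ν : K} (e₁ : y₁ ^ 2 = x₁ ^ 3 + a * x₁ ^ 2 + b * x₁)
    (hx₁ : 1 ≤ v x₁) (hb₂ : v b < v x₂) (h1₂ : v x₂ < 1) (hp₂ : v (y₂ - β * x₂) < v x₂)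
    (hV3 : x₁ * x₂ * x₃ = ν ^ 2)
    (hR12 : ν * (y₁ * x₂ + y₂ * x₁) = x₁ * x₂ * (b - x₁ * x₂))
    (hR23 : ν * (y₃ * x₂ - y₂ * x₃) = x₂ * x₃ * (x₂ * x₃ - b)) :
    v x₃ = v x₂ ∧ v (y₃ - β * x₃) < v x₃ := by
  have hx₁0 : 0 < v x₁ := lt_of_lt_of_le zero_lt_one hx₁
  have hx₂0 : 0 < v x₂ := lt_of_le_of_lt zero_le hb₂
  obtain ⟨hbr, -⟩ := h.v_branch_sq_of_E0 e₁ hx₁
  -- the sum `s = y₁ x₂ + y₂ x₁ = x₂ (y₁ + β x₁) + x₁ (y₂ - β x₂)`
  have hs_eq : y₁ * x₂ + y₂ * x₁ = x₂ * (y₁ + β * x₁) + x₁ * (y₂ - β * x₂) := by ring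
  have hsA : v (x₂ * (y₁ + β * x₁)) ^ 2 = v x₂ ^ 2 * v x₁ ^ 3 := by
    rw [map_mul, mul_pow, hbr]
  have hsB : v (x₁ * (y₂ - β * x₂)) < v (x₂ * (y₁ + β * x₁)) := by
    apply lt_of_pow_lt_pow_left₀ 2 zero_le
    rw [hsA, map_mul, mul_pow]
    calc v x₁ ^ 2 * v (y₂ - β * x₂) ^ 2 < v x₁ ^ 2 * v x₂ ^ 2 :=
          (mul_lt_mul_iff_right₀ (pow_pos hx₁0 2)).mpr
            (pow_lt_pow_left₀ hp₂ zero_le (by norm_num))
      _ = v x₂ ^ 2 * v x₁ ^ 2 := mul_comm _ _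
      _ ≤ v x₂ ^ 2 * v x₁ ^ 3 :=
          mul_le_mul_right (pow_le_pow_right₀ hx₁ (by norm_num)) _
  have hs2 : v (y₁ * x₂ + y₂ * x₁) ^ 2 = v x₂ ^ 2 * v x₁ ^ 3 := by
    rw [hs_eq, Valuation.map_add_eq_of_lt_left _ hsB, hsA]
  have h1 : v (b - x₁ * x₂) = v x₁ * v x₂ := by
    rw [Valuation.map_sub_eq_of_lt_right, map_mul]
    rw [map_mul]
    calc v b < v x₂ := hb₂
      _ = 1 * v x₂ := (one_mul _).symm
      _ ≤ v x₁ * v x₂ := mul_le_mul_left hx₁ _
  have h2 : v ν * v (y₁ * x₂ + y₂ * x₁) = (v x₁ * v x₂) ^ 2 := by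
    rw [← map_mul, hR12, map_mul, map_mul, h1, pow_two]
  have hs0 : v (y₁ * x₂ + y₂ * x₁) ^ 2 ≠ 0 := by
    rw [hs2]; exact mul_ne_zero (pow_ne_zero _ hx₂0.ne') (pow_ne_zero _ hx₁0.ne')
  have h3 : v ν ^ 2 = v x₁ * v x₂ ^ 2 := by
    have : v ν ^ 2 * v (y₁ * x₂ + y₂ * x₁) ^ 2 =
        (v x₁ * v x₂ ^ 2) * v (y₁ * x₂ + y₂ * x₁) ^ 2 := by
      rw [← mul_pow, h2, hs2]
      field_simp
    exact mul_right_cancel₀ hs0 this
  have hx₃ : v x₃ = v x₂ := by
    have e : v x₁ * v x₂ * v x₃ = v ν ^ 2 := by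
      rw [← map_pow, ← hV3, map_mul, map_mul]
    have : v x₁ * v x₂ * v x₃ = v x₁ * v x₂ * v x₂ := by
      rw [e, h3]
      field_simp
    exact mul_left_cancel₀ (mul_pos hx₁0 hx₂0).ne' this
  refine ⟨hx₃, ?_⟩
  -- the branch
  have hνge : v x₂ ≤ v ν := by
    apply le_of_pow_le_pow_left₀ (n := 2) (by norm_num) zero_le
    rw [h3]
    calc v x₂ ^ 2 = 1 * v x₂ ^ 2 := (one_mul _).symm
      _ ≤ v x₁ * v x₂ ^ 2 := mul_le_mul_left hx₁ _
  have h4 : v (x₂ * x₃ - b) < v x₂ := by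
    apply Valuation.map_sub_lt _ _ hb₂
    rw [map_mul, hx₃]
    calc v x₂ * v x₂ < v x₂ * 1 := (mul_lt_mul_iff_right₀ hx₂0).mpr h1₂
      _ = v x₂ := mul_one _
  have h5 : v (y₃ * x₂ - y₂ * x₃) < v x₂ * v x₂ := by
    apply (mul_lt_mul_iff_right₀ hx₂0).mp
    calc v x₂ * v (y₃ * x₂ - y₂ * x₃) ≤ v ν * v (y₃ * x₂ - y₂ * x₃) :=
          mul_le_mul_left hνge _
      _ = v x₂ * v x₂ * v (x₂ * x₃ - b) := by
          rw [← map_mul, hR23, map_mul, map_mul, hx₃]
      _ < v x₂ * v x₂ * v x₂ := (mul_lt_mul_iff_right₀ (mul_pos hx₂0 hx₂0)).mpr h4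
      _ = v x₂ * (v x₂ * v x₂) := mul_assoc _ _ _
  have h6 : x₂ * (y₃ - β * x₃) = (y₃ * x₂ - y₂ * x₃) + x₃ * (y₂ - β * x₂) := by ring
  have h7 : v (x₂ * (y₃ - β * x₃)) < v x₂ * v x₂ := by
    rw [h6]
    apply Valuation.map_add_lt _ h5
    rw [map_mul, hx₃]
    exact (mul_lt_mul_iff_right₀ hx₂0).mpr hp₂
  rw [map_mul] at h7
  rw [hx₃]
  exact (mul_lt_mul_iff_right₀ hx₂0).mp h7

end NodeData

namespace NodeData

variable (h : NodeData v a b β)
include h

/-- Both summands on the plus branch: `v ν = v (b - x₁ x₂)`. -/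
lemma PP_common {x₁ y₁ x₂ y₂ ν : K} (hb₁ : v b < v x₁) (hp₁ : v (y₁ - β * x₁) < v x₁)
    (hb₂ : v b < v x₂) (hp₂ : v (y₂ - β * x₂) < v x₂)
    (hR12 : ν * (y₁ * x₂ + y₂ * x₁) = x₁ * x₂ * (b - x₁ * x₂)) :
    v ν = v (b - x₁ * x₂) := by
  have hx₁0 : 0 < v x₁ := lt_of_le_of_lt zero_le hb₁
  have hx₂0 : 0 < v x₂ := lt_of_le_of_lt zero_le hb₂
  have hs_eq : y₁ * x₂ + y₂ * x₁ =
      (x₂ * (y₁ - β * x₁) + x₁ * (y₂ - β * x₂)) + 2 * β * (x₁ * x₂) := by ring
  have hlead : v (2 * β * (x₁ * x₂)) = v x₁ * v x₂ := by rw [h.v2β, map_mul]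
  have hsmall : v (x₂ * (y₁ - β * x₁) + x₁ * (y₂ - β * x₂)) < v x₁ * v x₂ := by
    apply Valuation.map_add_lt
    · rw [map_mul, mul_comm]
      exact (mul_lt_mul_iff_left₀ hx₂0).mpr hp₁
    · rw [map_mul]
      exact (mul_lt_mul_iff_right₀ hx₁0).mpr hp₂
  have hs : v (y₁ * x₂ + y₂ * x₁) = v x₁ * v x₂ := by
    rw [hs_eq, Valuation.map_add_eq_of_lt_right _ (by rwa [hlead]), hlead]
  have h2 : v ν * (v x₁ * v x₂) = (v x₁ * v x₂) * v (b - x₁ * x₂) := by
    rw [← hs, ← map_mul, hR12, map_mul, map_mul, hs]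
  rw [mul_comm] at h2
  exact mul_left_cancel₀ (mul_pos hx₁0 hx₂0).ne' h2

/-- Both summands on the plus branch, `v b < v x₁ * v x₂`: the sum is on the plus branch and
`v x₃ = v x₁ * v x₂`. -/
lemma PP_estimate_gt {x₁ y₁ x₂ y₂ x₃ y₃ ν : K} (hb₁ : v b < v x₁) (h1₁ : v x₁ < 1)
    (hp₁ : v (y₁ - β * x₁) < v x₁)
    (hb₂ : v b < v x₂) (h1₂ : v x₂ < 1) (hp₂ : v (y₂ - β * x₂) < v x₂)
    (hbig : v b < v x₁ * v x₂)
    (hV3 : x₁ * x₂ * x₃ = ν ^ 2)
    (hR12 : ν * (y₁ * x₂ + y₂ * x₁) = x₁ * x₂ * (b - x₁ * x₂))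
    (hR23 : ν * (y₃ * x₂ - y₂ * x₃) = x₂ * x₃ * (x₂ * x₃ - b)) :
    v x₃ = v x₁ * v x₂ ∧ v (y₃ - β * x₃) < v x₃ := by
  have hx₁0 : 0 < v x₁ := lt_of_le_of_lt zero_le hb₁
  have hx₂0 : 0 < v x₂ := lt_of_le_of_lt zero_le hb₂
  have hν : v ν = v x₁ * v x₂ := by
    rw [h.PP_common hb₁ hp₁ hb₂ hp₂ hR12, Valuation.map_sub_eq_of_lt_right, map_mul]
    rwa [map_mul]
  have hx₃ : v x₃ = v x₁ * v x₂ := by
    have e : v x₁ * v x₂ * v x₃ = v ν ^ 2 := by
      rw [← map_pow, ← hV3, map_mul, map_mul]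
    rw [hν, pow_two] at e
    exact mul_left_cancel₀ (mul_pos hx₁0 hx₂0).ne' e
  refine ⟨hx₃, ?_⟩
  have hx₃0 : 0 < v x₃ := by rw [hx₃]; exact mul_pos hx₁0 hx₂0
  have h4 : v (x₂ * x₃ - b) < v x₁ * v x₂ := by
    apply Valuation.map_sub_lt _ _ hbig
    rw [map_mul, hx₃]
    calc v x₂ * (v x₁ * v x₂) < 1 * (v x₁ * v x₂) :=
          (mul_lt_mul_iff_left₀ (mul_pos hx₁0 hx₂0)).mpr h1₂
      _ = v x₁ * v x₂ := one_mul _
  have h5 : v (y₃ * x₂ - y₂ * x₃) < v x₂ * v x₃ := by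
    apply (mul_lt_mul_iff_right₀ (mul_pos hx₁0 hx₂0)).mp
    calc v x₁ * v x₂ * v (y₃ * x₂ - y₂ * x₃) = v x₂ * v x₃ * v (x₂ * x₃ - b) := by
          rw [← hν, ← map_mul, hR23, map_mul, map_mul]
      _ < v x₂ * v x₃ * (v x₁ * v x₂) := (mul_lt_mul_iff_right₀ (mul_pos hx₂0 hx₃0)).mpr h4
      _ = v x₁ * v x₂ * (v x₂ * v x₃) := mul_comm _ _
  have h6 : x₂ * (y₃ - β * x₃) = (y₃ * x₂ - y₂ * x₃) + x₃ * (y₂ - β * x₂) := by ring
  have h7 : v (x₂ * (y₃ - β * x₃)) < v x₂ * v x₃ := by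
    rw [h6]
    apply Valuation.map_add_lt _ h5
    rw [map_mul, mul_comm]
    exact (mul_lt_mul_iff_left₀ hx₃0).mpr hp₂
  rw [map_mul] at h7
  exact (mul_lt_mul_iff_right₀ hx₂0).mp h7

/-- Both summands on the plus branch, `v x₁ * v x₂ < v b`: the sum is on the minus branch and
`v x₃ * (v x₁ * v x₂) = v b ^ 2`. -/
lemma PP_estimate_lt {x₁ y₁ x₂ y₂ x₃ y₃ ν : K} (hb₁ : v b < v x₁)
    (hp₁ : v (y₁ - β * x₁) < v x₁)
    (hb₂ : v b < v x₂) (hp₂ : v (y₂ - β * x₂) < v x₂)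
    (hsmall : v x₁ * v x₂ < v b)
    (hV3 : x₁ * x₂ * x₃ = ν ^ 2)
    (hR12 : ν * (y₁ * x₂ + y₂ * x₁) = x₁ * x₂ * (b - x₁ * x₂))
    (hS23 : y₃ * x₂ + y₂ * x₃ = ν * (x₃ - x₂)) :
    v x₁ * v x₂ * v x₃ = v b ^ 2 ∧ v b < v x₃ ∧ v x₃ < 1 ∧ v (y₃ + β * x₃) < v x₃ := by
  have hx₁0 : 0 < v x₁ := lt_of_le_of_lt zero_le hb₁
  have hx₂0 : 0 < v x₂ := lt_of_le_of_lt zero_le hb₂
  have hb0 : 0 < v b := h.vb_pos
  have hν : v ν = v b := by
    rw [h.PP_common hb₁ hp₁ hb₂ hp₂ hR12, Valuation.map_sub_eq_of_lt_left]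
    rwa [map_mul]
  have e : v x₁ * v x₂ * v x₃ = v b ^ 2 := by
    rw [← hν, ← map_pow, ← hV3, map_mul, map_mul]
  have hx₃b : v b < v x₃ := by
    apply (mul_lt_mul_iff_right₀ (mul_pos hx₁0 hx₂0)).mp
    rw [e, pow_two]
    exact (mul_lt_mul_iff_left₀ hb0).mpr hsmall
  have hx₃1 : v x₃ < 1 := by
    apply (mul_lt_mul_iff_right₀ (mul_pos hx₁0 hx₂0)).mp
    rw [e, mul_one, pow_two]
    exact mul_lt_mul'' hb₁ hb₂ zero_le zero_le
  have hx₃0 : 0 < v x₃ := lt_trans hb0 hx₃b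
  refine ⟨e, hx₃b, hx₃1, ?_⟩
  have h6 : x₂ * (y₃ + β * x₃) = ν * (x₃ - x₂) - x₃ * (y₂ - β * x₂) := by
    linear_combination hS23
  have h7 : v (x₂ * (y₃ + β * x₃)) < v x₂ * v x₃ := by
    rw [h6]
    apply Valuation.map_sub_lt
    · rw [map_mul, hν]
      have : v (x₃ - x₂) ≤ max (v x₃) (v x₂) := Valuation.map_sub _ _ _
      rcases le_max_iff.mp this with hle | hle
      · calc v b * v (x₃ - x₂) ≤ v b * v x₃ := mul_le_mul_right hle _
          _ < v x₂ * v x₃ := (mul_lt_mul_iff_left₀ hx₃0).mpr hb₂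
      · calc v b * v (x₃ - x₂) ≤ v b * v x₂ := mul_le_mul_right hle _
          _ < v x₃ * v x₂ := (mul_lt_mul_iff_left₀ hx₂0).mpr hx₃b
          _ = v x₂ * v x₃ := mul_comm _ _
    · rw [map_mul, mul_comm]
      exact (mul_lt_mul_iff_left₀ hx₃0).mpr hp₂
  rw [map_mul] at h7
  exact (mul_lt_mul_iff_right₀ hx₂0).mp h7

/-- Both summands on the plus branch, `v x₁ * v x₂ = v b`: the sum is on the far component. -/
lemma PP_estimate_eq {x₁ y₁ x₂ y₂ x₃ ν : K} (hb₁ : v b < v x₁)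
    (hp₁ : v (y₁ - β * x₁) < v x₁)
    (hb₂ : v b < v x₂) (hp₂ : v (y₂ - β * x₂) < v x₂)
    (heq : v x₁ * v x₂ = v b)
    (hV3 : x₁ * x₂ * x₃ = ν ^ 2)
    (hR12 : ν * (y₁ * x₂ + y₂ * x₁) = x₁ * x₂ * (b - x₁ * x₂)) :
    v x₃ ≤ v b := by
  have hb0 : 0 < v b := h.vb_pos
  have hν : v ν ≤ v b := by
    rw [h.PP_common hb₁ hp₁ hb₂ hp₂ hR12]
    apply Valuation.map_sub_le _ le_rfl
    rw [map_mul, heq]
  have e : v b * v x₃ = v ν ^ 2 := by
    rw [← heq, ← map_pow, ← hV3, map_mul, map_mul]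
  apply (mul_le_mul_iff_right₀ hb0).mp
  rw [e, pow_two]
  exact mul_le_mul' hν hν

end NodeData

/-! ### Additivity of the component function -/

namespace NodeData

variable (h : NodeData v a b β)
include h

lemma comp_zero : comp v a b β 0 = 1 := rfl

lemma comp_add_EE {P Q : (legW a b).toAffine.Point} (hP : IsE0 v a b P) (hQ : IsE0 v a b Q) :
    IsE0 v a b (P + Q) := by
  rcases P with _ | ⟨x₁, y₁, h₁⟩
  · change IsE0 v a b (0 + Q); rwa [zero_add]
  rcases Q with _ | ⟨x₂, y₂, h₂⟩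
  · change IsE0 v a b (_ + 0); rwa [add_zero]
  by_cases hxy : x₁ = x₂ ∧ y₁ = (legW a b).toAffine.negY x₂ y₂
  · rw [Point.add_of_Y_eq hxy.1 hxy.2]; trivial
  · obtain ⟨ν, x₃, y₃, h₃, hadd, hV3, hR12, -, -⟩ := leg_add_some' a b h₁ h₂ hxy
    rw [hadd]
    exact h.EE_estimate ((leg_equation_iff a b x₁ y₁).mp h₁.1)
      ((leg_equation_iff a b x₂ y₂).mp h₂.1) hP hQ hV3 hR12

lemma comp_add_EP {P Q : (legW a b).toAffine.Point} (hP : IsE0 v a b P)
    (hQ : IsPlus v a b β Q) :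
    IsPlus v a b β (P + Q) ∧ comp v a b β (P + Q) = comp v a b β Q := by
  rcases Q with _ | ⟨x₂, y₂, h₂⟩
  · exact absurd hQ id
  rcases P with _ | ⟨x₁, y₁, h₁⟩
  · change IsPlus v a b β (0 + _) ∧ comp v a b β (0 + _) = _
    rw [zero_add]; exact ⟨hQ, rfl⟩
  obtain ⟨hb₂, h1₂, hp₂⟩ := hQ
  have hP' : 1 ≤ v x₁ := hP
  have hxy : ¬(x₁ = x₂ ∧ y₁ = (legW a b).toAffine.negY x₂ y₂) := by
    rintro ⟨rfl, -⟩
    exact absurd h1₂ (not_lt.mpr hP')
  obtain ⟨ν, x₃, y₃, h₃, hadd, hV3, hR12, hR23, -⟩ := leg_add_some' a b h₁ h₂ hxy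
  obtain ⟨e1, e2⟩ := h.EP_estimate ((leg_equation_iff a b x₁ y₁).mp h₁.1) hP' hb₂ h1₂ hp₂
    hV3 hR12 hR23
  have hplus : IsPlus v a b β (.some x₃ y₃ h₃) := ⟨by rw [e1]; exact hb₂, by rw [e1]; exact h1₂, e2⟩
  rw [hadd]
  refine ⟨hplus, ?_⟩
  rw [h.comp_of_plus hplus, h.comp_of_plus (x := x₂) (y := y₂) (hP' := h₂) ⟨hb₂, h1₂, hp₂⟩, e1]

lemma comp_add_PP {P Q : (legW a b).toAffine.Point} (hP : IsPlus v a b β P)
    (hQ : IsPlus v a b β Q) :
    Cong v b (comp v a b β (P + Q)) (comp v a b β P * comp v a b β Q) := by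
  rcases P with _ | ⟨x₁, y₁, h₁⟩
  · exact absurd hP id
  rcases Q with _ | ⟨x₂, y₂, h₂⟩
  · exact absurd hQ id
  have hP' := hP
  have hQ' := hQ
  obtain ⟨hb₁, h1₁, hp₁⟩ := hP
  obtain ⟨hb₂, h1₂, hp₂⟩ := hQ
  have hxy : ¬(x₁ = x₂ ∧ y₁ = (legW a b).toAffine.negY x₂ y₂) := by
    rintro ⟨rfl, hy⟩
    rw [leg_negY] at hy
    subst hy
    have : v (y₂ + β * x₁) < v x₁ := by
      have e : y₂ + β * x₁ = -(-y₂ - β * x₁) := by ring
      rw [e, Valuation.map_neg]; exact hp₁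
    exact h.not_plus_and_minus hp₂ this
  obtain ⟨ν, x₃, y₃, h₃, hadd, hV3, hR12, hR23, hS23⟩ := leg_add_some' a b h₁ h₂ hxy
  rw [hadd, h.comp_of_plus hP', h.comp_of_plus hQ']
  rcases lt_trichotomy (v b) (v x₁ * v x₂) with hlt | heq | hgt
  · obtain ⟨e1, e2⟩ := h.PP_estimate_gt hb₁ h1₁ hp₁ hb₂ h1₂ hp₂ hlt hV3 hR12 hR23
    have hplus : IsPlus v a b β (.some x₃ y₃ h₃) := by
      refine ⟨by rw [e1]; exact hlt, ?_, e2⟩
      rw [e1]
      calc v x₁ * v x₂ < 1 * 1 := mul_lt_mul'' h1₁ h1₂ zero_le zero_le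
        _ = 1 := one_mul _
    rw [h.comp_of_plus hplus, e1]
    exact Cong.refl _
  · have e1 := h.PP_estimate_eq hb₁ hp₁ hb₂ hp₂ heq.symm hV3 hR12
    have hfar : IsFar v a b (.some x₃ y₃ h₃) := e1
    rw [h.comp_of_far hfar, heq]
    exact Cong.refl _
  · obtain ⟨e, e1, e2, e3⟩ := h.PP_estimate_lt hb₁ hp₁ hb₂ hp₂ hgt hV3 hR12 hS23
    have hminus : IsMinus v a b β (.some x₃ y₃ h₃) := ⟨e1, e2, e3⟩
    rw [h.comp_of_minus hminus]
    refine ⟨-1, ?_⟩
    have hx₃0 : v x₃ ≠ 0 := (lt_trans h.vb_pos e1).ne'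
    have hvb0 : v b ≠ 0 := h.vb_pos.ne'
    simp only [mul_neg, mul_one, zpow_neg]
    rw [← zpow_natCast (v b) 2] at e
    have e' : (v b ^ (2 : ℤ))⁻¹ = (v x₁ * v x₂ * v x₃)⁻¹ := by rw [e]; rfl
    rw [e']
    have hx₁0 : v x₁ ≠ 0 := (lt_trans h.vb_pos hb₁).ne'
    have hx₂0 : v x₂ ≠ 0 := (lt_trans h.vb_pos hb₂).ne'
    field_simp

/-- Additivity of the component function for summands in `E₀` or on the plus branch. -/
lemma comp_add_good {P Q : (legW a b).toAffine.Point}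
    (hP : IsE0 v a b P ∨ IsPlus v a b β P) (hQ : IsE0 v a b Q ∨ IsPlus v a b β Q) :
    Cong v b (comp v a b β (P + Q)) (comp v a b β P * comp v a b β Q) := by
  rcases hP with hP | hP <;> rcases hQ with hQ | hQ
  · rw [h.comp_of_E0 (h.comp_add_EE hP hQ), h.comp_of_E0 hP, h.comp_of_E0 hQ, one_mul]
    exact Cong.refl _
  · rw [(h.comp_add_EP hP hQ).2, h.comp_of_E0 hP, one_mul]
    exact Cong.refl _
  · rw [add_comm, (h.comp_add_EP hQ hP).2, h.comp_of_E0 hQ, mul_one]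
    exact Cong.refl _
  · exact h.comp_add_PP hP hQ

end NodeData

namespace NodeData

variable (h : NodeData v a b β)
include h

lemma add_T_add_T (P : (legW a b).toAffine.Point) :
    (P + Tpt a b h.hb0) + Tpt a b h.hb0 = P := by
  rw [add_assoc, Tpt_add_self, add_zero]

/-- **Additivity of the component function** modulo powers of `v b ^ 2`. -/
theorem comp_add (P Q : (legW a b).toAffine.Point) :
    Cong v b (comp v a b β (P + Q)) (comp v a b β P * comp v a b β Q) := by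
  have hb0 := h.hb0
  set T := Tpt a b h.hb0 with hT
  -- reduction: it suffices to treat `P = P' (+ T)` and `Q = Q' (+ T)` with `P'`, `Q'` good
  have key1 : ∀ P' Q' : (legW a b).toAffine.Point,
      (IsE0 v a b P' ∨ IsPlus v a b β P') → (IsE0 v a b Q' ∨ IsPlus v a b β Q') →
      Cong v b (comp v a b β (P' + (Q' + T))) (comp v a b β P' * comp v a b β (Q' + T)) := by
    intro P' Q' hP' hQ'
    have e1 : P' + (Q' + T) = (P' + Q') + T := (add_assoc _ _ _).symm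
    rw [e1]
    refine (h.comp_add_T (P' + Q')).trans hb0 ?_
    refine (Cong.mul_right hb0 (v b) (h.comp_add_good hP' hQ')).trans hb0 ?_
    rw [mul_assoc]
    exact Cong.mul hb0 (Cong.refl _) ((h.comp_add_T Q').symm hb0)
  have key2 : ∀ P' Q' : (legW a b).toAffine.Point,
      (IsE0 v a b P' ∨ IsPlus v a b β P') → (IsE0 v a b Q' ∨ IsPlus v a b β Q') →
      Cong v b (comp v a b β ((P' + T) + (Q' + T)))
        (comp v a b β (P' + T) * comp v a b β (Q' + T)) := by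
    intro P' Q' hP' hQ'
    have e1 : (P' + T) + (Q' + T) = P' + Q' := by
      rw [add_add_add_comm, hT, Tpt_add_self, add_zero]
    rw [e1]
    refine (h.comp_add_good hP' hQ').trans hb0 ?_
    have c1 := (h.comp_add_T P').symm hb0
    have c2 := (h.comp_add_T Q').symm hb0
    have c3 := Cong.mul hb0 c1 c2
    refine Cong.trans hb0 ?_ c3
    have e2 : comp v a b β P' * v b * (comp v a b β Q' * v b) =
        comp v a b β P' * comp v a b β Q' * (v b * v b) := mul_mul_mul_comm _ _ _ _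
    rw [e2]
    have := Cong.mul hb0 (Cong.refl (comp v a b β P' * comp v a b β Q')) (Cong.one_sq (v := v) hb0)
    rwa [mul_one] at this
  rcases h.good_or_good_add_T P with hP | hP <;> rcases h.good_or_good_add_T Q with hQ | hQ
  · exact h.comp_add_good hP hQ
  · have := key1 P (Q + T) hP hQ
    rwa [h.add_T_add_T Q] at this
  · have := key1 Q (P + T) hQ hP
    rw [h.add_T_add_T P] at this
    rwa [add_comm, mul_comm]
  · have := key2 (P + T) (Q + T) hP hQ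
    rwa [h.add_T_add_T P, h.add_T_add_T Q] at this

/-- Iterated version: `comp (n • P) ≡ comp P ^ n`. -/
theorem comp_nsmul (P : (legW a b).toAffine.Point) (n : ℕ) :
    Cong v b (comp v a b β (n • P)) (comp v a b β P ^ n) := by
  induction n with
  | zero => rw [zero_smul, pow_zero]; exact Cong.refl _
  | succ n ih =>
    rw [succ_nsmul, pow_succ]
    exact (h.comp_add (n • P) P).trans h.hb0 (Cong.mul_right h.hb0 _ ih)

end NodeData

end node

end Fermat.Agent.S05lib
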