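/-
S05 library: torsion points of `y² = x³ + a x² + b x` near the node, and the inertia action.
-/
import Mathlib
import Fermat.Agent.S05lib.Node
import Fermat.Agent.S05lib.KerRed.Main
import Fermat.Agent.S05lib.SigmaVal

set_option autoImplicit false
set_option linter.unusedSectionVars false

namespace Fermat.Agent.S05lib

open WeierstrassCurve WeierstrassCurve.Affine

section

variable {K : Type*} [Field K] [DecidableEq K] {Γ₀ : Type*} [LinearOrderedCommGroupWithZero Γ₀]
  {v : Valuation K Γ₀} {a b β : K}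

namespace NodeData

variable (h : NodeData v a b β)
include h

lemma integralModel : IntegralModel v (legW a b) where
  a₁ := by simp
  a₂ := by simp [h.va]
  a₃ := by simp
  a₄ := by simpa using h.hb.le
  a₆ := by simp

/-- A point whose component is trivial modulo `v b ^ 2` has nonsingular reduction. -/
lemma isE0_of_cong_one {S : (legW a b).toAffine.Point} (hS : Cong v b (comp v a b β S) 1) :
    IsE0 v a b S := by
  obtain ⟨m, hm⟩ := hS
  rw [one_mul] at hm
  have hb0 : 0 < v b := h.vb_pos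
  have hb1 : v b < 1 := h.hb
  have hanti := zpow_right_strictAnti₀ hb0 hb1
  -- `v b ^ (2m)` is either `≥ 1` or `≤ v b ^ 2 < v b`
  have hdich : 1 ≤ v b ^ (2 * m) ∨ v b ^ (2 * m) < v b := by
    rcases le_or_gt m 0 with hm0 | hm0
    · left
      exact one_le_zpow_of_nonpos₀ hb0 hb1.le (by omega)
    · right
      have : (1 : ℤ) < 2 * m := by omega
      have := hanti this
      simpa using this
  rcases h.classify S with hc | hc | hc | hc
  · exact hc
  · exfalso
    rw [h.comp_of_far hc] at hm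
    rcases hdich with h1 | h1
    · rw [← hm] at h1; exact absurd hb1 (not_lt.mpr h1)
    · rw [← hm] at h1; exact lt_irrefl _ h1
  · exfalso
    rcases S with _ | ⟨x, y, hS'⟩
    · exact hc
    · rw [h.comp_of_plus hc] at hm
      obtain ⟨h1, h2, -⟩ := hc
      rcases hdich with h3 | h3
      · rw [← hm] at h3; exact absurd h2 (not_lt.mpr h3)
      · rw [← hm] at h3; exact absurd h3 (not_lt.mpr h1.le)
  · exfalso
    rcases S with _ | ⟨x, y, hS'⟩
    · exact hc
    · rw [h.comp_of_minus hc] at hm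
      obtain ⟨h1, h2, -⟩ := hc
      have hx0 : v x ≠ 0 := (lt_trans hb0 h1).ne'
      -- `v x = v b ^ (-2m)`
      have hm' : v x = v b ^ (2 * (-m)) := by
        rw [mul_neg, zpow_neg, ← hm, inv_inv]
      have hdich' : 1 ≤ v b ^ (2 * (-m)) ∨ v b ^ (2 * (-m)) < v b := by
        rcases le_or_gt (-m) 0 with hm0 | hm0
        · left
          exact one_le_zpow_of_nonpos₀ hb0 hb1.le (by omega)
        · right
          have : (1 : ℤ) < 2 * (-m) := by omega
          have := hanti this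
          simpa using this
      rcases hdich' with h3 | h3
      · rw [← hm'] at h3; exact absurd h2 (not_lt.mpr h3)
      · rw [← hm'] at h3; exact absurd h3 (not_lt.mpr h1.le)

/-- From `1 ≡ c ^ p` and `v ρ ^ p = v b ^ 2` we get `c = v ρ ^ k` for some integer `k`. -/
lemma exists_zpow_of_pow_cong_one {c : Γ₀} {ρ : K} {p : ℕ} (hp : p ≠ 0)
    (hρ : v ρ ^ p = v b ^ 2) (hc : Cong v b 1 (c ^ p)) : ∃ k : ℤ, c = v ρ ^ k := by
  obtain ⟨m, hm⟩ := hc
  have hb0 : v b ≠ 0 := h.vb_pos.ne'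
  have hρ0 : v ρ ≠ 0 := by
    intro h0
    rw [h0, zero_pow hp] at hρ
    exact (pow_ne_zero 2 hb0) hρ.symm
  have e1 : v b ^ (2 * m) = (v ρ ^ m) ^ p := by
    rw [zpow_mul, zpow_ofNat, ← hρ, ← zpow_natCast, ← zpow_natCast, ← zpow_mul, ← zpow_mul,
      mul_comm]
  rw [e1, ← mul_pow] at hm
  have e2 : c * v ρ ^ m = 1 := (pow_left_inj₀ zero_le zero_le hp).mp (by rw [← hm, one_pow])
  refine ⟨-m, ?_⟩
  rw [zpow_neg]
  exact eq_inv_of_mul_eq_one_left e2

lemma rho_near {ρ : K} {p : ℕ} (hp3 : 3 ≤ p) (hρ : v ρ ^ p = v b ^ 2) :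
    v b < v ρ ∧ v ρ < 1 := by
  have hb0 : 0 < v b := h.vb_pos
  have hb1 : v b < 1 := h.hb
  have hp0 : p ≠ 0 := by omega
  constructor
  · by_contra hcon
    push Not at hcon
    have h1 : v ρ ^ p ≤ v b ^ p := pow_le_pow_left₀ zero_le hcon p
    have h2 : v b ^ p ≤ v b ^ 3 := pow_le_pow_of_le_one zero_le hb1.le hp3
    have h3 : v b ^ 3 < v b ^ 2 := pow_lt_pow_right_of_lt_one₀ hb0 hb1 (by norm_num)
    rw [hρ] at h1
    exact lt_irrefl _ (lt_of_le_of_lt (le_trans h1 h2) h3)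
  · by_contra hcon
    push Not at hcon
    have h1 : 1 ≤ v ρ ^ p := one_le_pow₀ hcon
    rw [hρ] at h1
    have h2 : v b ^ 2 < 1 := pow_lt_one₀ zero_le hb1 (by norm_num)
    exact lt_irrefl _ (lt_of_le_of_lt h1 h2)

lemma v_three_le : v (3 : K) ≤ 1 := by
  have : (3 : K) = 2 + 1 := by norm_num
  rw [this]
  exact Valuation.map_add_le _ h.h2.le (by rw [map_one])

/-- Existence of a point on the plus branch with prescribed `x`-coordinate `ρ` near the node. -/
lemma exists_plus_point (hsq : ∀ c : K, ∃ d : K, d ^ 2 = c) {ρ : K} (hρb : v b < v ρ)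
    (hρ1 : v ρ < 1) :
    ∃ (Y : K) (hR : (legW a b).toAffine.Nonsingular ρ Y), IsPlus v a b β (.some ρ Y hR) := by
  obtain ⟨Y, hY⟩ := hsq (ρ ^ 3 + a * ρ ^ 2 + b * ρ)
  have hρ0 : 0 < v ρ := lt_trans h.vb_pos hρb
  -- the partial derivative in `x` does not vanish
  have hder : (3 * ρ ^ 2 + 2 * a * ρ + b) ≠ 0 := by
    have h1 : v (2 * a * ρ) = v ρ := by rw [map_mul, map_mul, h.h2, h.va, one_mul, one_mul]
    have h2 : v (3 * ρ ^ 2) < v ρ := by
      rw [map_mul, map_pow, pow_two]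
      calc v 3 * (v ρ * v ρ) ≤ 1 * (v ρ * v ρ) := mul_le_mul_left h.v_three_le _
        _ = v ρ * v ρ := one_mul _
        _ < v ρ * 1 := (mul_lt_mul_iff_right₀ hρ0).mpr hρ1
        _ = v ρ := mul_one _
    have h3 : v (3 * ρ ^ 2 + 2 * a * ρ + b) = v ρ := by
      have e : 3 * ρ ^ 2 + 2 * a * ρ + b = (3 * ρ ^ 2 + b) + 2 * a * ρ := by ring
      rw [e, Valuation.map_add_eq_of_lt_right _ (by rw [h1]; exact Valuation.map_add_lt _ h2 hρb),
        h1]
    intro h0
    rw [h0, map_zero] at h3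
    exact hρ0.ne h3
  have hns : ∀ Y' : K, Y' ^ 2 = ρ ^ 3 + a * ρ ^ 2 + b * ρ →
      (legW a b).toAffine.Nonsingular ρ Y' := fun Y' hY' =>
    (leg_nonsingular_iff a b ρ Y').mpr ⟨hY', Or.inl hder⟩
  rcases h.near_plus_or_minus hY hρ1 hρb with hp | hm
  · exact ⟨Y, hns Y hY, hρb, hρ1, hp⟩
  · refine ⟨-Y, hns (-Y) (by rw [neg_sq, hY]), hρb, hρ1, ?_⟩
    have e : -Y - β * ρ = -(Y + β * ρ) := by ring
    rw [e, Valuation.map_neg]
    exact hm

/-- A ring endomorphism which is the identity on `ρ` and trivial on the residue field fixes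
the `y`-coordinate of a plus point above `ρ`. -/
lemma sigma_y_eq (σ : K →+* K) (hσ1 : ∀ x, v x ≤ 1 → v (σ x - x) < 1) {ρ Y : K} (hσρ : σ ρ = ρ)
    (hY : Y ^ 2 = ρ ^ 3 + a * ρ ^ 2 + b * ρ)
    (hY' : σ Y ^ 2 = ρ ^ 3 + a * ρ ^ 2 + b * ρ) (hρ0 : ρ ≠ 0)
    (hp : v (Y - β * ρ) < v ρ) : σ Y = Y := by
  have hsq : σ Y ^ 2 = Y ^ 2 := by rw [hY, hY']
  rcases sq_eq_sq_iff_eq_or_eq_neg.mp hsq with h1 | h1
  · exact h1
  · exfalso
    have hvY : v Y = v ρ := h.v_y_of_plus hp
    have hρv : v ρ ≠ 0 := (Valuation.ne_zero_iff v).mpr hρ0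
    have hg : v (Y / ρ) = 1 := by rw [map_div₀, hvY, div_self hρv]
    have h2 := hσ1 (Y / ρ) hg.le
    rw [map_div₀, hσρ, h1] at h2
    have e : -Y / ρ - Y / ρ = -(2 * (Y / ρ)) := by ring
    rw [e, Valuation.map_neg, map_mul, h.h2, one_mul, hg] at h2
    exact lt_irrefl _ h2

/-- The reduction of an integral point with `v x = 1` is a nonsingular point. -/
lemma nonsingular_reduction {x y : K} (hxy : y ^ 2 = x ^ 3 + a * x ^ 2 + b * x) (hx : v x = 1) :
    v y ≤ 1 ∧ (v ((legW a b).a₁ * y - (3 * x ^ 2 + 2 * (legW a b).a₂ * x + (legW a b).a₄)) = 1 ∨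
      v (2 * y + (legW a b).a₁ * x + (legW a b).a₃) = 1) := by
  have hy1 : v y ≤ 1 := by
    apply le_of_pow_le_pow_left₀ (n := 2) (by norm_num) zero_le
    rw [one_pow, ← map_pow, hxy]
    have := h.v_rhs_le (x := x) hx.ge
    rwa [hx, one_pow] at this
  refine ⟨hy1, ?_⟩
  simp only [legW_a₁, legW_a₂, legW_a₃, legW_a₄, zero_mul, zero_sub, add_zero, Valuation.map_neg]
  by_cases hy : v y < 1
  · left
    have h1 : v (x ^ 2 * (x + a)) < 1 := by
      have e : x ^ 2 * (x + a) = y ^ 2 - b * x := by linear_combination -hxy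
      rw [e]
      apply Valuation.map_sub_lt
      · rw [map_pow]; exact pow_lt_one₀ zero_le hy (by norm_num)
      · rw [map_mul, hx, mul_one]; exact h.hb
    rw [map_mul, map_pow, hx, one_pow, one_mul] at h1
    have h2 : v (x + 2 * (x + a)) = 1 := by
      rw [Valuation.map_add_eq_of_lt_left, hx]
      rw [hx, map_mul, h.h2, one_mul]; exact h1
    have e : 3 * x ^ 2 + 2 * a * x + b = x * (x + 2 * (x + a)) + b := by ring
    rw [e, Valuation.map_add_eq_of_lt_left, map_mul, hx, h2, one_mul]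
    rw [map_mul, hx, h2, one_mul]; exact h.hb
  · right
    rw [map_mul, h.h2, one_mul]
    exact le_antisymm hy1 (not_lt.mp hy)

/-- **Inertia acts trivially on the `p`-torsion of a curve with a node**, when the valuation
of `b` is divisible by `p` in the sense that `v ρ ^ p = v b ^ 2` for some `σ`-fixed `ρ`.
Here `σ` is a ring endomorphism of `K` preserving `v` and acting trivially on the residue
field, and `τ` is the induced additive map on points. -/
theorem node_fixed (hsq : ∀ c : K, ∃ d : K, d ^ 2 = c)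
    (σ : K →+* K) (hσA : ∀ x, v (σ x) ≤ 1 ↔ v x ≤ 1)
    (hσ1 : ∀ x, v x ≤ 1 → v (σ x - x) < 1)
    (τ : (legW a b).toAffine.Point →+ (legW a b).toAffine.Point)
    (hτ : ∀ (x y : K) (hP : (legW a b).toAffine.Nonsingular x y),
      ∃ hP' : (legW a b).toAffine.Nonsingular (σ x) (σ y), τ (.some x y hP) = .some (σ x) (σ y) hP')
    {p : ℕ} (hp3 : 3 ≤ p) (hpv : v (p : K) = 1)
    {ρ : K} (hσρ : σ ρ = ρ) (hρ : v ρ ^ p = v b ^ 2)
    (P : (legW a b).toAffine.Point) (hP : p • P = 0) : τ P = P := by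
  have hp0 : p ≠ 0 := by omega
  have hb0 := h.hb0
  have hW := h.integralModel
  have hc := h.comp_nsmul P p
  rw [hP, h.comp_zero] at hc
  obtain ⟨k, hk⟩ := h.exists_zpow_of_pow_cong_one hp0 hρ hc
  obtain ⟨hρb, hρ1⟩ := h.rho_near hp3 hρ
  obtain ⟨Y, hR, hplus⟩ := h.exists_plus_point hsq hρb hρ1
  have hρ0 : ρ ≠ 0 := by
    rintro rfl
    rw [map_zero] at hρb
    exact not_lt.mpr zero_le hρb
  have hρv0 : v ρ ≠ 0 := (Valuation.ne_zero_iff v).mpr hρ0
  -- the auxiliary point is fixed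
  have hτR : τ (.some ρ Y hR) = .some ρ Y hR := by
    obtain ⟨hR', e⟩ := hτ ρ Y hR
    rw [e, Point.some.injEq]
    refine ⟨hσρ, ?_⟩
    have e1 := (leg_equation_iff a b ρ Y).mp hR.1
    have e2 := (leg_equation_iff a b (σ ρ) (σ Y)).mp hR'.1
    rw [hσρ] at e2
    exact h.sigma_y_eq σ hσ1 hσρ e1 e2 hρ0 hplus.2.2
  -- choice of the multiple
  set n : ℕ := ((-k) % (p : ℤ)).toNat with hn
  have hpZ : (0 : ℤ) < p := by exact_mod_cast Nat.pos_of_ne_zero hp0
  have hn' : (n : ℤ) = (-k) % (p : ℤ) := by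
    rw [hn, Int.toNat_of_nonneg (Int.emod_nonneg _ hpZ.ne')]
  have hkn : k + n = (p : ℤ) * (-((-k) / (p : ℤ))) := by
    have := Int.emod_add_mul_ediv (-k) (p : ℤ)
    rw [hn']
    linarith
  set j : ℤ := -((-k) / (p : ℤ)) with hj
  set S := P + n • (Point.some ρ Y hR : (legW a b).toAffine.Point) with hS
  have hcS : Cong v b (comp v a b β S) 1 := by
    have c1 := h.comp_add P (n • (Point.some ρ Y hR : (legW a b).toAffine.Point))
    have c2 := h.comp_nsmul (Point.some ρ Y hR) n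
    rw [h.comp_of_plus hplus] at c2
    have c3 := Cong.mul hb0 (Cong.refl (comp v a b β P)) c2
    refine (c1.trans hb0 c3).trans hb0 ⟨j, ?_⟩
    rw [hk, one_mul, ← zpow_natCast (v ρ) n, ← zpow_add₀ hρv0, hkn, zpow_mul, zpow_natCast, hρ,
      ← zpow_ofNat, ← zpow_mul]
  have hSE0 := h.isE0_of_cong_one hcS
  have hτS : τ S - S = τ P - P := by
    rw [hS, map_add, map_nsmul, hτR]
    abel
  -- `τ P - P` lies in the kernel of reduction
  have hQ : InE1 v (legW a b) (τ P - P) := by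
    rw [← hτS]
    rcases hSeq : S with _ | ⟨x, y, hS'⟩
    · have : (Point.zero : (legW a b).toAffine.Point) = 0 := rfl
      rw [this, map_zero, sub_zero]
      exact inE1_zero
    · rw [hSeq] at hSE0
      have hx1 : 1 ≤ v x := hSE0
      obtain ⟨hS'', eS⟩ := hτ x y hS'
      rw [eS]
      rcases lt_or_eq_of_le hx1 with hlt | heq
      · rw [sub_eq_add_neg]
        apply InE1.add hW
        · rw [inE1_some]; exact one_lt_sigma hσA hlt
        · exact InE1.neg ((inE1_some hS').mpr hlt)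
      · have hxσ : v (σ x) = 1 := sigma_eq_one hσA heq.symm
        obtain ⟨hy1, -⟩ := h.nonsingular_reduction ((leg_equation_iff a b x y).mp hS'.1) heq.symm
        obtain ⟨hy1', hns⟩ :=
          h.nonsingular_reduction ((leg_equation_iff a b (σ x) (σ y)).mp hS''.1) hxσ
        exact inE1_sub_of_congr hW hS'' hS' hxσ.le hy1' heq.symm.le hy1
          (hσ1 x heq.symm.le) (hσ1 y hy1) hns
  have hpQ : p • (τ P - P) = 0 := by
    rw [smul_sub, ← map_nsmul, hP, map_zero, sub_zero]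
  have := InE1.eq_zero_of_nsmul hW hQ hpv hpQ
  exact sub_eq_zero.mp this

end NodeData

end

end Fermat.Agent.S05lib
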