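/-
S05 library: the Frey curve, its Legendre-type models, and the final assembly.
-/
import Mathlib
import Fermat.Prelude.Def_FLTPrelim_FreyPackage
import Fermat.Prelude.Def_FLTPrelim_Ramification
import Fermat.Agent.S05lib.Glue
import Fermat.Agent.S05lib.Good
import Fermat.Agent.S05lib.NodeTorsion
import Fermat.Agent.S05lib.InertiaFacts

set_option autoImplicit false

namespace Fermat.Agent.S05lib

open WeierstrassCurve

section models

/-- The change of variables `x = X/4`, `y = Y/8 - X/8`. -/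
noncomputable def vc1 : VariableChange ℚ := ⟨Units.mk0 (1 / 2) (by norm_num), 0, -1 / 2, 0⟩

/-- The translation `X ↦ X + r`. -/
noncomputable def vc2 (r : ℚ) : VariableChange ℚ := ⟨1, r, 0, 0⟩

lemma frey_vc1 (P : FreyPackage) :
    vc1 • P.freyCurve =
      legW (((P.b ^ P.p - P.a ^ P.p : ℤ) : ℚ)) (((-(P.a ^ P.p * P.b ^ P.p) : ℤ) : ℚ)) := by
  ext
  · simp only [variableChange_a₁, vc1, FreyPackage.freyCurve, legW, Units.val_inv_eq_inv_val,
      Units.val_mk0]
    norm_num
  · simp only [variableChange_a₂, vc1, FreyPackage.freyCurve, legW, Units.val_inv_eq_inv_val,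
      Units.val_mk0]
    push_cast
    ring
  · simp only [variableChange_a₃, vc1, FreyPackage.freyCurve, legW, Units.val_inv_eq_inv_val,
      Units.val_mk0]
    norm_num
  · simp only [variableChange_a₄, vc1, FreyPackage.freyCurve, legW, Units.val_inv_eq_inv_val,
      Units.val_mk0]
    push_cast
    ring
  · simp only [variableChange_a₆, vc1, FreyPackage.freyCurve, legW, Units.val_inv_eq_inv_val,
      Units.val_mk0]
    norm_num

lemma legW_vc2 (A B : ℤ) :
    vc2 (A : ℚ) • legW (((B - A : ℤ) : ℚ)) (((-(A * B) : ℤ) : ℚ)) =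
      legW (((A + (A + B) : ℤ) : ℚ)) (((A * (A + B) : ℤ) : ℚ)) := by
  ext
  · simp [variableChange_a₁, vc2, legW]
  · simp only [variableChange_a₂, vc2, legW, inv_one, Units.val_one]
    push_cast
    ring
  · simp [variableChange_a₃, vc2, legW]
  · simp only [variableChange_a₄, vc2, legW, inv_one, Units.val_one]
    push_cast
    ring
  · simp only [variableChange_a₆, vc2, legW, inv_one, Units.val_one]
    push_cast
    ring

end models

section intval

variable {K : Type*} [Field K] (A : ValuationSubring K)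

lemma vint_le_one (n : ℤ) : A.valuation (n : K) ≤ 1 :=
  (A.valuation_le_one_iff _).mpr (intCast_mem A n)

lemma vint_lt_one_of_dvd {q : ℕ} (hqA : A.valuation (q : K) < 1) {n : ℤ}
    (hn : (q : ℤ) ∣ n) : A.valuation (n : K) < 1 := by
  obtain ⟨m, rfl⟩ := hn
  push_cast
  rw [map_mul]
  calc A.valuation (q : K) * A.valuation (m : K) ≤ A.valuation (q : K) * 1 :=
        mul_le_mul_right (vint_le_one A m) _
    _ = A.valuation (q : K) := mul_one _
    _ < 1 := hqA

lemma vint_eq_one_of_not_dvd {q : ℕ} (hq : q.Prime) (hqA : A.valuation (q : K) < 1)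
    {n : ℤ} (hn : ¬(q : ℤ) ∣ n) : A.valuation (n : K) = 1 := by
  have hcop : IsCoprime (q : ℤ) n :=
    (Nat.prime_iff_prime_int.mp hq).irreducible.coprime_iff_not_dvd.mpr hn
  obtain ⟨s, t, hst⟩ := hcop
  apply le_antisymm (vint_le_one A n)
  by_contra hlt
  push Not at hlt
  have h1 : A.valuation ((s : K) * (q : K) + (t : K) * (n : K)) < 1 := by
    apply Valuation.map_add_lt
    · rw [map_mul]
      calc A.valuation (s : K) * A.valuation (q : K) ≤ 1 * A.valuation (q : K) :=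
            mul_le_mul_left (vint_le_one A s) _
        _ = A.valuation (q : K) := one_mul _
        _ < 1 := hqA
    · rw [map_mul]
      calc A.valuation (t : K) * A.valuation (n : K) ≤ 1 * A.valuation (n : K) :=
            mul_le_mul_left (vint_le_one A t) _
        _ = A.valuation (n : K) := one_mul _
        _ < 1 := hlt
  have h2 : (s : K) * (q : K) + (t : K) * (n : K) = 1 := by
    have := congrArg (fun z : ℤ => (z : K)) hst
    push_cast at this
    exact this
  rw [h2, map_one] at h1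
  exact lt_irrefl _ h1

end intval

section main

open FreyPackage

local notation "Kbar" => AlgebraicClosure ℚ

lemma exists_sq_Kbar (c : Kbar) : ∃ d : Kbar, d ^ 2 = c :=
  IsAlgClosed.exists_pow_nat_eq c (by norm_num)

lemma algebraMap_intCast (n : ℤ) : algebraMap ℚ Kbar (n : ℚ) = (n : Kbar) :=
  map_intCast (algebraMap ℚ Kbar) n

/-- Node case: the hypotheses of `NodeData.node_fixed` for `legW a b` with integers `a`, `b`. -/
theorem node_case (A : ValuationSubring Kbar) {q : ℕ} (hq : q.Prime)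
    (hqA : A.valuation (q : Kbar) < 1) (σ : Kbar ≃ₐ[ℚ] Kbar) (hσ : σ ∈ A.inertiaSubgroupIn ℚ)
    {p : ℕ} (hp3 : 3 ≤ p) (hpq : ¬(q : ℤ) ∣ (p : ℤ)) (hq2 : ¬(q : ℤ) ∣ 2)
    (a b r : ℤ) (ha : ¬(q : ℤ) ∣ a) (hb : (q : ℤ) ∣ b) (hb0 : b ≠ 0)
    (hr : A.valuation (r : Kbar) ^ p = A.valuation (b : Kbar) ^ 2) :
    FixesTorsion (K := Kbar) (legW ((a : ℤ) : ℚ) ((b : ℤ) : ℚ) : Affine ℚ) σ p := by
  obtain ⟨hσA, hσ1⟩ := inertia_facts A σ hσ
  apply fixesTorsion_legW' _ _ (a : Kbar) (b : Kbar) (algebraMap_intCast a) (algebraMap_intCast b)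
  intro τ hτ
  obtain ⟨β, hβ⟩ := exists_sq_Kbar (a : Kbar)
  have hva : A.valuation (a : Kbar) = 1 := vint_eq_one_of_not_dvd A hq hqA ha
  have hβ1 : A.valuation β = 1 := by
    have : A.valuation β ^ 2 = 1 ^ 2 := by rw [← map_pow, hβ, hva, one_pow]
    exact (pow_left_inj₀ zero_le zero_le (by norm_num)).mp this
  have h2 : A.valuation (2 : Kbar) = 1 := by
    have := vint_eq_one_of_not_dvd A hq hqA hq2
    simpa using this
  have hpv : A.valuation ((p : ℕ) : Kbar) = 1 := by
    have := vint_eq_one_of_not_dvd A hq hqA hpq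
    simpa using this
  have hnode : NodeData A.valuation (a : Kbar) (b : Kbar) β :=
    { hb := vint_lt_one_of_dvd A hqA hb
      hb0 := by exact_mod_cast hb0
      hβ := hβ
      hβ1 := hβ1
      h2 := h2 }
  have hσr : (σ : Kbar →+* Kbar) (r : Kbar) = (r : Kbar) := map_intCast _ r
  exact hnode.node_fixed exists_sq_Kbar (σ : Kbar →+* Kbar) (fun x => hσA x)
    (fun x hx => hσ1 x hx) τ (fun x y hP => hτ x y hP) hp3 hpv hσr hr

/-- Good case. -/
theorem good_case (A : ValuationSubring Kbar) {q : ℕ} (hq : q.Prime)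
    (hqA : A.valuation (q : Kbar) < 1) (σ : Kbar ≃ₐ[ℚ] Kbar) (hσ : σ ∈ A.inertiaSubgroupIn ℚ)
    {p : ℕ} (hpq : ¬(q : ℤ) ∣ (p : ℤ)) (hq2 : ¬(q : ℤ) ∣ 2)
    (a b : ℤ) (hb : ¬(q : ℤ) ∣ b) (hd : ¬(q : ℤ) ∣ (a ^ 2 - 4 * b)) :
    FixesTorsion (K := Kbar) (legW ((a : ℤ) : ℚ) ((b : ℤ) : ℚ) : Affine ℚ) σ p := by
  obtain ⟨hσA, hσ1⟩ := inertia_facts A σ hσ
  apply fixesTorsion_legW' _ _ (a : Kbar) (b : Kbar) (algebraMap_intCast a) (algebraMap_intCast b)
  intro τ hτ
  have h2 : A.valuation (2 : Kbar) = 1 := by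
    have := vint_eq_one_of_not_dvd A hq hqA hq2
    simpa using this
  have hpv : A.valuation ((p : ℕ) : Kbar) = 1 := by
    have := vint_eq_one_of_not_dvd A hq hqA hpq
    simpa using this
  have hd' : A.valuation ((a : Kbar) ^ 2 - 4 * (b : Kbar)) = 1 := by
    have := vint_eq_one_of_not_dvd A hq hqA hd
    push_cast at this
    exact this
  exact good_fixed (vint_le_one A a) (vint_eq_one_of_not_dvd A hq hqA hb) hd' h2
    (σ : Kbar →+* Kbar) (fun x => hσA x) (fun x hx => hσ1 x hx) τ (fun x y hP => hτ x y hP) hpv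

/-- **Inertia at an odd prime `q ≠ p` acts trivially on the `p`-torsion of the Frey curve.** -/
theorem frey_fixesTorsion (P : FreyPackage) {q : ℕ} (hq : q.Prime) (hq2 : q ≠ 2) (hqp : q ≠ P.p)
    (A : ValuationSubring Kbar) (hA : A.LiesOverPrime q) (σ : Kbar ≃ₐ[ℚ] Kbar)
    (hσ : σ ∈ A.inertiaSubgroupIn ℚ) :
    FixesTorsion (K := Kbar) (P.freyCurve : Affine ℚ) σ P.p := by
  have hqA : A.valuation (q : Kbar) < 1 := hA
  have hqprime : Prime (q : ℤ) := Nat.prime_iff_prime_int.mp hq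
  have hq2' : ¬(q : ℤ) ∣ 2 := by
    intro h
    have h' : q ∣ 2 := by exact_mod_cast h
    exact hq2 ((Nat.prime_dvd_prime_iff_eq hq Nat.prime_two).mp h')
  have hpq : ¬(q : ℤ) ∣ (P.p : ℤ) := by
    intro h
    have h' : q ∣ P.p := by exact_mod_cast h
    exact hqp ((Nat.prime_dvd_prime_iff_eq hq P.pp).mp h')
  have hp3 : 3 ≤ P.p := by have := P.hp5; omega
  have hp0 : P.p ≠ 0 := P.hp0
  have hFLT : P.a ^ P.p + P.b ^ P.p = P.c ^ P.p := P.hFLT
  -- coprimality
  have hnot_ab : ¬((q : ℤ) ∣ P.a ∧ (q : ℤ) ∣ P.b) := by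
    rintro ⟨h1, h2⟩
    have := dvd_gcd h1 h2
    rw [P.hgcdab] at this
    exact hqprime.not_isUnit (isUnit_of_dvd_one this)
  have hnot_ac : ¬((q : ℤ) ∣ P.a ∧ (q : ℤ) ∣ P.c) := by
    rintro ⟨h1, h2⟩
    have := dvd_gcd h1 h2
    rw [P.hgcdac] at this
    exact hqprime.not_isUnit (isUnit_of_dvd_one this)
  have hpow : ∀ z : ℤ, (q : ℤ) ∣ z ^ P.p ↔ (q : ℤ) ∣ z := fun z =>
    ⟨fun h => hqprime.dvd_of_dvd_pow h, fun h => dvd_pow h hp0⟩
  apply FixesTorsion.of_variableChange _ vc1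
  rw [frey_vc1]
  by_cases hc : (q : ℤ) ∣ P.c
  · -- `q ∣ c`: translate the node to the origin
    have ha : ¬(q : ℤ) ∣ P.a := fun h => hnot_ac ⟨h, hc⟩
    apply FixesTorsion.of_variableChange _ (vc2 ((P.a ^ P.p : ℤ) : ℚ))
    rw [legW_vc2]
    have hAi : A.valuation ((P.a ^ P.p : ℤ) : Kbar) = 1 :=
      vint_eq_one_of_not_dvd A hq hqA (fun h => ha ((hpow _).mp h))
    apply node_case A hq hqA σ hσ hp3 hpq hq2' _ _ (P.c ^ 2)
    · intro h
      rw [hFLT] at h
      have : (q : ℤ) ∣ P.a ^ P.p := (dvd_add_left ((hpow _).mpr hc)).mp h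
      exact ha ((hpow _).mp this)
    · rw [hFLT]
      exact dvd_mul_of_dvd_right ((hpow _).mpr hc) _
    · rw [hFLT]
      exact mul_ne_zero (pow_ne_zero _ P.ha0) (pow_ne_zero _ P.hc0)
    · rw [hFLT]
      push_cast
      rw [map_mul, map_pow, map_pow, map_pow]
      push_cast at hAi
      rw [map_pow] at hAi
      rw [hAi, one_mul, ← pow_mul, ← pow_mul, mul_comm]
  · by_cases hab : (q : ℤ) ∣ P.a * P.b
    · -- `q ∣ a b`: node at the origin
      apply node_case A hq hqA σ hσ hp3 hpq hq2' _ _ ((P.a * P.b) ^ 2)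
      · intro h
        rcases hqprime.dvd_or_dvd hab with h1 | h1
        · have h2 : (q : ℤ) ∣ P.b ^ P.p := (dvd_sub_left ((hpow _).mpr h1)).mp h
          exact hnot_ab ⟨h1, (hpow _).mp h2⟩
        · have h2 : (q : ℤ) ∣ P.a ^ P.p := (dvd_sub_right ((hpow _).mpr h1)).mp h
          exact hnot_ab ⟨(hpow _).mp h2, h1⟩
      · rw [dvd_neg, ← mul_pow]
        exact (hpow _).mpr hab
      · exact neg_ne_zero.mpr (mul_ne_zero (pow_ne_zero _ P.ha0) (pow_ne_zero _ P.hb0))
      · push_cast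
        rw [Valuation.map_neg, ← map_pow, ← map_pow]
        congr 1
        ring
    · -- good reduction
      have ha : ¬(q : ℤ) ∣ P.a := fun h => hab (dvd_mul_of_dvd_left h _)
      have hb : ¬(q : ℤ) ∣ P.b := fun h => hab (dvd_mul_of_dvd_right h _)
      apply good_case A hq hqA σ hσ hpq hq2'
      · rw [dvd_neg]
        intro h
        rcases hqprime.dvd_or_dvd h with h1 | h1
        · exact ha ((hpow _).mp h1)
        · exact hb ((hpow _).mp h1)
      · intro h
        have e : (P.b ^ P.p - P.a ^ P.p) ^ 2 - 4 * -(P.a ^ P.p * P.b ^ P.p) =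
            (P.c ^ P.p) ^ 2 := by rw [← hFLT]; ring
        rw [e] at h
        exact hc ((hpow _).mp (hqprime.dvd_of_dvd_pow h))

end main

end Fermat.Agent.S05lib
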