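/-
S05 support: transfer of `GaloisRepUnramifiedAt` along Galois-equivariant isomorphisms of points,
and the two explicit changes of variables from the Frey curve to the Legendre-type models
`Y² = X³ + A X² + B X`.
All declarations live in `Fermat.Agent.S05lib`.
-/
import Mathlib
import Fermat.Prelude.Def_FLTPrelim_Ramification
import Fermat.Agent.S51lib.Transfer

set_option autoImplicit false

namespace Fermat.Agent.S05lib

open WeierstrassCurve WeierstrassCurve.Affine WeierstrassCurve.Affine.Point
open Fermat.Agent.S51lib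

section Transfer

universe u

variable {F₀ : Type*} {K : Type u} [Field F₀] [Field K] [DecidableEq K] [Algebra F₀ K]

/-- `GaloisRepUnramifiedAt` transfers along a Galois-equivariant isomorphism of points. -/
theorem galoisRepUnramifiedAt_of_equiv {W₁ W₂ : Affine F₀} (n q : ℕ)
    (e : (W₁⁄K).Point ≃+ (W₂⁄K).Point)
    (he : ∀ (σ : K ≃ₐ[F₀] K) (P : (W₁⁄K).Point), e (σ • P) = σ • e P)
    (h : GaloisRepUnramifiedAt F₀ K W₁ n q) : GaloisRepUnramifiedAt F₀ K W₂ n q := by
  intro A hA σ hσ x
  have hx := x.2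
  rw [Submodule.mem_torsionBy_iff] at hx
  have hy : e.symm (x : (W₂⁄K).Point) ∈ Submodule.torsionBy ℤ (W₁⁄K).Point n := by
    rw [Submodule.mem_torsionBy_iff]
    apply e.injective
    rw [map_zsmul, AddEquiv.apply_symm_apply, hx, _root_.map_zero]
  have h1 := h A hA σ hσ ⟨_, hy⟩
  have h2 : σ • e.symm (x : (W₂⁄K).Point) = e.symm (x : (W₂⁄K).Point) :=
    congrArg Subtype.val h1
  apply Subtype.ext
  show σ • (x : (W₂⁄K).Point) = x
  have h3 := congrArg e h2
  rw [he, AddEquiv.apply_symm_apply] at h3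
  exact h3

/-- `GaloisRepUnramifiedAt` is invariant under a change of variables over the base field. -/
theorem galoisRepUnramifiedAt_variableChange (E : Affine F₀) (C : VariableChange F₀) (n q : ℕ)
    (h : GaloisRepUnramifiedAt F₀ K (C • E) n q) : GaloisRepUnramifiedAt F₀ K E n q :=
  galoisRepUnramifiedAt_of_equiv n q (vcEquivBaseChange E C) (vcEquivBaseChange_smul E C) h

/-- Version with a propositional equality for the changed curve. -/
theorem galoisRepUnramifiedAt_of_variableChange_eq (E E' : Affine F₀) (C : VariableChange F₀)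
    (hE : C • E = E') (n q : ℕ)
    (h : GaloisRepUnramifiedAt F₀ K E' n q) : GaloisRepUnramifiedAt F₀ K E n q := by
  subst hE
  exact galoisRepUnramifiedAt_variableChange E C n q h

end Transfer

section Frey

/-- The change of variables `x = X/4`, `y = Y/8 - X/8` from the Frey curve to
`Y² = X (X - a^p) (X + b^p)`. -/
def freyVC : VariableChange ℚ := ⟨Units.mk0 (1 / 2) (by norm_num), 0, -1 / 2, 0⟩

/-- The change of variables from the Frey curve to `Y² = X (X + a^p) (X + c^p)`
(the Legendre model translated by `a^p`). -/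
def freyVCShift (P : FreyPackage) : VariableChange ℚ :=
  ⟨Units.mk0 (1 / 2) (by norm_num), (P.a : ℚ) ^ P.p / 4, -1 / 2, -((P.a : ℚ) ^ P.p) / 8⟩

theorem freyVC_smul (P : FreyPackage) :
    freyVC • P.freyCurve = ⟨0, (P.b : ℚ) ^ P.p - (P.a : ℚ) ^ P.p, 0,
      -((P.a : ℚ) ^ P.p * (P.b : ℚ) ^ P.p), 0⟩ := by
  ext
  · simp only [variableChange_a₁, freyVC, FreyPackage.freyCurve, Units.val_inv_eq_inv_val,
      Units.val_mk0]
    norm_num
  · simp only [variableChange_a₂, freyVC, FreyPackage.freyCurve, Units.val_inv_eq_inv_val,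
      Units.val_mk0]
    ring
  · simp only [variableChange_a₃, freyVC, FreyPackage.freyCurve, Units.val_inv_eq_inv_val,
      Units.val_mk0]
    norm_num
  · simp only [variableChange_a₄, freyVC, FreyPackage.freyCurve, Units.val_inv_eq_inv_val,
      Units.val_mk0]
    ring
  · simp only [variableChange_a₆, freyVC, FreyPackage.freyCurve, Units.val_inv_eq_inv_val,
      Units.val_mk0]
    ring

theorem freyVCShift_smul (P : FreyPackage) :
    freyVCShift P • P.freyCurve = ⟨0, (P.a : ℚ) ^ P.p + (P.c : ℚ) ^ P.p, 0,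
      (P.a : ℚ) ^ P.p * (P.c : ℚ) ^ P.p, 0⟩ := by
  have hFLT : (P.a : ℚ) ^ P.p + (P.b : ℚ) ^ P.p = (P.c : ℚ) ^ P.p := by
    exact_mod_cast congrArg (fun z : ℤ => (z : ℚ)) P.hFLT
  ext
  · simp only [variableChange_a₁, freyVCShift, FreyPackage.freyCurve, Units.val_inv_eq_inv_val,
      Units.val_mk0]
    norm_num
  · simp only [variableChange_a₂, freyVCShift, FreyPackage.freyCurve, Units.val_inv_eq_inv_val,
      Units.val_mk0]
    linear_combination hFLT
  · simp only [variableChange_a₃, freyVCShift, FreyPackage.freyCurve, Units.val_inv_eq_inv_val,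
      Units.val_mk0]
    ring
  · simp only [variableChange_a₄, freyVCShift, FreyPackage.freyCurve, Units.val_inv_eq_inv_val,
      Units.val_mk0]
    linear_combination ((P.a : ℚ) ^ P.p) * hFLT
  · simp only [variableChange_a₆, freyVCShift, FreyPackage.freyCurve, Units.val_inv_eq_inv_val,
      Units.val_mk0]
    linear_combination (0 : ℚ) * hFLT

/-- To prove that the Frey representation is unramified at `q` it suffices to do so for
`Y² = X³ + (b^p - a^p) X² - a^p b^p X`. -/
theorem frey_unramified_of_leg (P : FreyPackage) (q : ℕ)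
    (h : GaloisRepUnramifiedAt ℚ (AlgebraicClosure ℚ)
      (⟨0, (P.b : ℚ) ^ P.p - (P.a : ℚ) ^ P.p, 0, -((P.a : ℚ) ^ P.p * (P.b : ℚ) ^ P.p), 0⟩ :
        Affine ℚ) P.p q) :
    P.GaloisRepUnramifiedAt q :=
  galoisRepUnramifiedAt_of_variableChange_eq _ _ freyVC (freyVC_smul P) _ _ h

/-- To prove that the Frey representation is unramified at `q` it suffices to do so for
`Y² = X³ + (a^p + c^p) X² + a^p c^p X`. -/
theorem frey_unramified_of_leg_shift (P : FreyPackage) (q : ℕ)
    (h : GaloisRepUnramifiedAt ℚ (AlgebraicClosure ℚ)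
      (⟨0, (P.a : ℚ) ^ P.p + (P.c : ℚ) ^ P.p, 0, (P.a : ℚ) ^ P.p * (P.c : ℚ) ^ P.p, 0⟩ :
        Affine ℚ) P.p q) :
    P.GaloisRepUnramifiedAt q :=
  galoisRepUnramifiedAt_of_variableChange_eq _ _ (freyVCShift P) (freyVCShift_smul P) _ _ h

end Frey

end Fermat.Agent.S05lib
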