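/-
S05 support: unpacking the inertia subgroup of a valuation subring.
For `σ ∈ A.inertiaSubgroupIn K`: `σ` preserves `A` and acts trivially modulo the maximal ideal.
All declarations live in `Fermat.Agent.S05lib`.
-/
import Mathlib
import Fermat.Prelude.Def_FLTPrelim_Ramification

set_option autoImplicit false

namespace Fermat.Agent.S05lib

open ValuationSubring
open scoped Pointwise

universe u

variable {K : Type*} {L : Type u} [Field K] [Field L] [Algebra K L] (A : ValuationSubring L)

/-- An element of `inertiaSubgroupIn` comes from the inertia subgroup of the decomposition group. -/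
theorem inertia_exists {σ : L ≃ₐ[K] L} (hσ : σ ∈ A.inertiaSubgroupIn K) :
    ∃ τ : A.decompositionSubgroup K, τ ∈ A.inertiaSubgroup K ∧ (τ : L ≃ₐ[K] L) = σ := by
  rcases hσ with ⟨τ, hτ, rfl⟩
  exact ⟨τ, hτ, rfl⟩

/-- Elements of the decomposition group preserve `A`. -/
theorem decomposition_mem_iff (τ : A.decompositionSubgroup K) (x : L) :
    (τ : L ≃ₐ[K] L) x ∈ A ↔ x ∈ A := by
  have hτ : (τ : L ≃ₐ[K] L) • A = A := τ.2
  constructor
  · intro h
    have h1 : (τ : L ≃ₐ[K] L) • x ∈ (τ : L ≃ₐ[K] L) • A := by rw [hτ]; exact h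
    exact ValuationSubring.smul_mem_pointwise_smul_iff.mp h1
  · intro h
    have h1 : (τ : L ≃ₐ[K] L) • x ∈ (τ : L ≃ₐ[K] L) • A :=
      ValuationSubring.smul_mem_pointwise_smul _ _ _ h
    rw [hτ] at h1
    exact h1

theorem inertia_mem_iff {σ : L ≃ₐ[K] L} (hσ : σ ∈ A.inertiaSubgroupIn K) (x : L) :
    σ x ∈ A ↔ x ∈ A := by
  obtain ⟨τ, -, rfl⟩ := inertia_exists A hσ
  exact decomposition_mem_iff A τ x

theorem inertia_val_le_one_iff {σ : L ≃ₐ[K] L} (hσ : σ ∈ A.inertiaSubgroupIn K) (x : L) :
    A.valuation (σ x) ≤ 1 ↔ A.valuation x ≤ 1 := by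
  rw [A.valuation_le_one_iff, A.valuation_le_one_iff]
  exact inertia_mem_iff A hσ x

/-- Inertia acts trivially on the residue field. -/
theorem inertia_sub_lt_one {σ : L ≃ₐ[K] L} (hσ : σ ∈ A.inertiaSubgroupIn K) {x : L}
    (hx : x ∈ A) : A.valuation (σ x - x) < 1 := by
  obtain ⟨τ, hτ, rfl⟩ := inertia_exists A hσ
  have hker : MulSemiringAction.toRingAut (A.decompositionSubgroup K)
      (IsLocalRing.ResidueField A) τ = 1 := hτ
  have h1 : τ • IsLocalRing.residue A ⟨x, hx⟩ = IsLocalRing.residue A ⟨x, hx⟩ := by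
    have := congrArg (fun f => f (IsLocalRing.residue A ⟨x, hx⟩)) hker
    exact this
  rw [← IsLocalRing.ResidueField.residue_smul] at h1
  have h2 : IsLocalRing.residue A (τ • (⟨x, hx⟩ : A) - ⟨x, hx⟩) = 0 := by
    rw [map_sub, h1, sub_self]
  rw [IsLocalRing.residue_eq_zero_iff] at h2
  have h3 := (A.valuation_lt_one_iff _).mp h2
  exact h3

/-- Inertia elements fix the base field. -/
theorem inertia_algebraMap (σ : L ≃ₐ[K] L) (r : K) : σ (algebraMap K L r) = algebraMap K L r :=
  σ.commutes r

section Integers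

variable {A}

/-- Integers are integral. -/
theorem val_intCast_le_one (n : ℤ) : A.valuation (n : L) ≤ 1 := by
  rw [A.valuation_le_one_iff]
  exact intCast_mem A n

theorem val_natCast_le_one' (n : ℕ) : A.valuation (n : L) ≤ 1 := by
  rw [A.valuation_le_one_iff]
  exact natCast_mem A n

theorem val_prime_lt_one {q : ℕ} (hA : A.LiesOverPrime q) : A.valuation (q : L) < 1 := hA

/-- An integer is a unit at a valuation subring over `q` iff it is prime to `q`. -/
theorem val_intCast_eq_one_iff {q : ℕ} (hq : q.Prime) (hA : A.LiesOverPrime q) (n : ℤ) :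
    A.valuation (n : L) = 1 ↔ ¬ (q : ℤ) ∣ n := by
  have hqv : A.valuation (q : L) < 1 := hA
  constructor
  · intro h ⟨m, hm⟩
    have : A.valuation (n : L) < 1 := by
      rw [hm]; push_cast
      rw [map_mul]
      calc A.valuation (q : L) * A.valuation (m : L) ≤ A.valuation (q : L) * 1 :=
            mul_le_mul' le_rfl (val_intCast_le_one m)
        _ = A.valuation (q : L) := mul_one _
        _ < 1 := hqv
    rw [h] at this
    exact lt_irrefl _ this
  · intro h
    have hcop : IsCoprime n (q : ℤ) := by
      have hp : Prime (q : ℤ) := Nat.prime_iff_prime_int.mp hq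
      exact (hp.coprime_iff_not_dvd.mpr h).symm
    obtain ⟨u, w, huw⟩ := hcop
    by_contra hne
    have hlt : A.valuation (n : L) < 1 := lt_of_le_of_ne (val_intCast_le_one n) hne
    have h1 : (1 : L) = (u : L) * (n : L) + (w : L) * (q : L) := by
      have := congrArg (fun z : ℤ => (z : L)) huw
      push_cast at this
      exact this.symm
    have : A.valuation (1 : L) < 1 := by
      rw [h1]
      refine lt_of_le_of_lt (A.valuation.map_add _ _) (max_lt ?_ ?_)
      · rw [map_mul]
        calc A.valuation (u : L) * A.valuation (n : L) ≤ 1 * A.valuation (n : L) :=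
              mul_le_mul' (val_intCast_le_one u) le_rfl
          _ = A.valuation (n : L) := one_mul _
          _ < 1 := hlt
      · rw [map_mul]
        calc A.valuation (w : L) * A.valuation (q : L) ≤ 1 * A.valuation (q : L) :=
              mul_le_mul' (val_intCast_le_one w) le_rfl
          _ = A.valuation (q : L) := one_mul _
          _ < 1 := hqv
    rw [map_one] at this
    exact lt_irrefl _ this

/-- A natural number prime to `q` is a unit. -/
theorem val_natCast_eq_one_of_not_dvd {q : ℕ} (hq : q.Prime) (hA : A.LiesOverPrime q) {n : ℕ}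
    (hn : ¬ q ∣ n) : A.valuation (n : L) = 1 := by
  have := (val_intCast_eq_one_iff hq hA (n : ℤ)).mpr (by
    intro h; exact hn (Int.natCast_dvd_natCast.mp h))
  simpa using this

/-- The valuation of an integer divisible by `q` is `< 1`. -/
theorem val_intCast_lt_one_of_dvd {q : ℕ} (hq : q.Prime) (hA : A.LiesOverPrime q) {n : ℤ}
    (hn : (q : ℤ) ∣ n) : A.valuation (n : L) < 1 := by
  refine lt_of_le_of_ne (val_intCast_le_one n) ?_
  intro h
  exact ((val_intCast_eq_one_iff hq hA n).mp h) hn

end Integers

end Fermat.Agent.S05lib
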