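/-
S05 support: inertia fixes torsion points with nonsingular reduction.
All declarations live in `Fermat.Agent.S05lib`.
-/
import Fermat.Agent.S05lib.KerRed.Main
import Fermat.Agent.S05lib.Inertia
import Fermat.Prelude.Def_FLTPrelim_GaloisRep
import Fermat.Prelude.Def_FLTPrelim_Ramification

set_option autoImplicit false

namespace Fermat.Agent.S05lib

open WeierstrassCurve WeierstrassCurve.Affine WeierstrassCurve.Affine.Point

section General

variable {F : Type*} [Field F] {Γ₀ : Type*} [LinearOrderedCommGroupWithZero Γ₀]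
variable {v : Valuation F Γ₀} {W : WeierstrassCurve.Affine F}

/-- On an integral model, a point with integral `x`-coordinate has integral `y`-coordinate. -/
theorem val_y_le_one_of_val_x_le_one (hW : IntegralModel v W) {x y : F} (h : W.Equation x y)
    (hx : v x ≤ 1) : v y ≤ 1 := by
  by_contra hy
  rw [not_le] at hy
  rw [WeierstrassCurve.Affine.equation_iff] at h
  have h' : y * (y + (W.a₁ * x + W.a₃)) = x ^ 3 + W.a₂ * x ^ 2 + W.a₄ * x + W.a₆ := by
    linear_combination h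
  have hax : v (W.a₁ * x + W.a₃) ≤ 1 := by
    refine v.map_add_le ?_ hW.a₃
    rw [map_mul]
    calc v W.a₁ * v x ≤ 1 * 1 := mul_le_mul' hW.a₁ hx
      _ = 1 := one_mul _
  have hs : v (y + (W.a₁ * x + W.a₃)) = v y :=
    Valuation.map_add_eq_of_lt_left v (lt_of_le_of_lt hax hy)
  have hL : v (y * (y + (W.a₁ * x + W.a₃))) = v y * v y := by rw [map_mul, hs]
  have hR : v (x ^ 3 + W.a₂ * x ^ 2 + W.a₄ * x + W.a₆) ≤ 1 := by
    refine v.map_add_le (v.map_add_le (v.map_add_le ?_ ?_) ?_) hW.a₆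
    · rw [map_pow]; exact pow_le_one₀ zero_le hx
    · rw [map_mul, map_pow]
      calc v W.a₂ * v x ^ 2 ≤ 1 * 1 := mul_le_mul' hW.a₂ (pow_le_one₀ zero_le hx)
        _ = 1 := one_mul _
    · rw [map_mul]
      calc v W.a₄ * v x ≤ 1 * 1 := mul_le_mul' hW.a₄ hx
        _ = 1 := one_mul _
  rw [← h', hL] at hR
  have : (1 : Γ₀) < v y * v y := by
    calc (1 : Γ₀) = 1 * 1 := (one_mul 1).symm
      _ < v y * v y := mul_lt_mul'' hy hy zero_le zero_le
  exact absurd hR (not_le.mpr this)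

/-- If the discriminant of an integral model is a unit, every integral point has nonsingular
reduction. -/
theorem nonsingular_red_of_val_Δ (hW : IntegralModel v W) {x y : F} (h : W.Equation x y)
    (hx : v x ≤ 1) (hy : v y ≤ 1) (hΔ : v W.Δ = 1) :
    v (W.a₁ * y - (3 * x ^ 2 + 2 * W.a₂ * x + W.a₄)) = 1 ∨
      v (2 * y + W.a₁ * x + W.a₃) = 1 := by
  rw [WeierstrassCurve.Affine.equation_iff] at h
  obtain ⟨p3, hp3⟩ : ∃ p3, p3 = 2 * y + W.a₁ * x + W.a₃ := ⟨_, rfl⟩
  obtain ⟨p4, hp4⟩ : ∃ p4, p4 = W.a₁ * y - (3 * x ^ 2 + 2 * W.a₂ * x + W.a₄) := ⟨_, rfl⟩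
  rw [← hp3, ← hp4]
  -- the discriminant in terms of the translated coefficients
  have key : W.Δ = -(W.a₁ ^ 2 + 4 * (W.a₂ + 3 * x)) ^ 2 *
        (-W.a₁ * p3 * (-p4) + (W.a₂ + 3 * x) * p3 ^ 2 - (-p4) ^ 2)
      - 8 * (2 * (-p4) + W.a₁ * p3) ^ 3 - 27 * (p3 ^ 2) ^ 2
      + 9 * (W.a₁ ^ 2 + 4 * (W.a₂ + 3 * x)) * (2 * (-p4) + W.a₁ * p3) * (p3 ^ 2) := by
    rw [hp3, hp4]
    simp only [WeierstrassCurve.Δ, WeierstrassCurve.b₂, WeierstrassCurve.b₄,
      WeierstrassCurve.b₆, WeierstrassCurve.b₈]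
    linear_combination ((W.a₁ ^ 2 + 4 * (W.a₂ + 3 * x)) ^ 3
      + 216 * (2 * y + W.a₁ * x + W.a₃) ^ 2
      - 36 * (W.a₁ ^ 2 + 4 * (W.a₂ + 3 * x)) *
          (2 * (-(W.a₁ * y - (3 * x ^ 2 + 2 * W.a₂ * x + W.a₄)))
            + W.a₁ * (2 * y + W.a₁ * x + W.a₃))
      - 432 * ((y ^ 2 + W.a₁ * x * y + W.a₃ * y)
          - (x ^ 3 + W.a₂ * x ^ 2 + W.a₄ * x + W.a₆))) * h
  by_contra hcon
  rw [not_or] at hcon
  have i3 : v p3 ≤ 1 := by
    rw [hp3]
    refine v.map_add_le (v.map_add_le ?_ ?_) hW.a₃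
    · rw [map_mul]
      calc v 2 * v y ≤ 1 * 1 := mul_le_mul' (by
            have := val_natCast_le_one (v := v) 2; simpa using this) hy
        _ = 1 := one_mul _
    · rw [map_mul]
      calc v W.a₁ * v x ≤ 1 * 1 := mul_le_mul' hW.a₁ hx
        _ = 1 := one_mul _
  have n2 : v (2 : F) ≤ 1 := by have := val_natCast_le_one (v := v) 2; simpa using this
  have n3 : v (3 : F) ≤ 1 := by have := val_natCast_le_one (v := v) 3; simpa using this
  have i4 : v p4 ≤ 1 := by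
    rw [hp4]
    refine v.map_sub_le ?_ (v.map_add_le (v.map_add_le ?_ ?_) hW.a₄)
    · rw [map_mul]
      calc v W.a₁ * v y ≤ 1 * 1 := mul_le_mul' hW.a₁ hy
        _ = 1 := one_mul _
    · rw [map_mul, map_pow]
      calc v 3 * v x ^ 2 ≤ 1 * 1 := mul_le_mul' n3 (pow_le_one₀ zero_le hx)
        _ = 1 := one_mul _
    · rw [map_mul, map_mul]
      calc v 2 * v W.a₂ * v x ≤ 1 * 1 * 1 := mul_le_mul' (mul_le_mul' n2 hW.a₂) hx
        _ = 1 := by rw [one_mul, one_mul]
  have s3 : v p3 < 1 := lt_of_le_of_ne i3 hcon.2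
  have s4 : v p4 < 1 := lt_of_le_of_ne i4 hcon.1
  -- use the `Sm` calculus with `t = max (v p3) (v p4)`
  obtain ⟨t, ht, h3, h4⟩ : ∃ t : Γ₀, t < 1 ∧ v p3 ≤ t ∧ v p4 ≤ t :=
    ⟨max (v p3) (v p4), max_lt s3 s4, le_max_left _ _, le_max_right _ _⟩
  have ht1 : t ≤ 1 := ht.le
  have S3 : Sm v t 1 p3 := by unfold Sm; rwa [pow_one]
  have S4 : Sm v t 1 p4 := by unfold Sm; rwa [pow_one]
  have I1 : Sm v t 0 W.a₁ := Sm.of_int hW.a₁
  have I2 : Sm v t 0 W.a₂ := Sm.of_int hW.a₂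
  have Ix : Sm v t 0 x := Sm.of_int hx
  have N2 : Sm v t 0 (2 : F) := Sm.ofNat 2
  have N3 : Sm v t 0 (3 : F) := Sm.ofNat 3
  have N4 : Sm v t 0 (4 : F) := Sm.ofNat 4
  have N8 : Sm v t 0 (8 : F) := Sm.ofNat 8
  have N9 : Sm v t 0 (9 : F) := Sm.ofNat 9
  have N27 : Sm v t 0 (27 : F) := Sm.ofNat 27
  have Ib2 : Sm v t 0 (W.a₁ ^ 2 + 4 * (W.a₂ + 3 * x)) :=
    Sm.add ((I1.pow 2).mono ht1 (by norm_num))
      ((N4.mul (I2.add ((N3.mul Ix).mono ht1 (by norm_num)))).mono ht1 (by norm_num))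
  have Sb4 : Sm v t 1 (2 * (-p4) + W.a₁ * p3) :=
    Sm.add ((N2.mul S4.neg).mono ht1 (by norm_num)) ((I1.mul S3).mono ht1 (by norm_num))
  have Sb6 : Sm v t 1 (p3 ^ 2) := (S3.pow 2).mono ht1 (by norm_num)
  have Ia2 : Sm v t 0 (W.a₂ + 3 * x) := I2.add ((N3.mul Ix).mono ht1 (by norm_num))
  have Sb8 : Sm v t 1 (-W.a₁ * p3 * (-p4) + (W.a₂ + 3 * x) * p3 ^ 2 - (-p4) ^ 2) := by
    refine Sm.sub (Sm.add ?_ ?_) ?_
    · exact ((I1.neg.mul S3).mul S4.neg).mono ht1 (by norm_num)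
    · exact (Ia2.mul (S3.pow 2)).mono ht1 (by norm_num)
    · exact (S4.neg.pow 2).mono ht1 (by norm_num)
  have SΔ : Sm v t 1 W.Δ := by
    rw [key]
    refine Sm.add (Sm.sub (Sm.sub ?_ ?_) ?_) ?_
    · exact ((Ib2.pow 2).neg.mul Sb8).mono ht1 (by norm_num)
    · exact (N8.mul (Sb4.pow 3)).mono ht1 (by norm_num)
    · exact (N27.mul (Sb6.pow 2)).mono ht1 (by norm_num)
    · exact (((N9.mul Ib2).mul Sb4).mul Sb6).mono ht1 (by norm_num)
  have : v W.Δ ≤ t := by have := SΔ.le; rwa [pow_one] at this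
  rw [hΔ] at this
  exact absurd this (not_le.mpr ht)

variable [DecidableEq F]

/-- A nonzero `n`-torsion point (`n` a unit) on an integral model has integral `x`-coordinate. -/
theorem val_x_le_one_of_nsmul_eq_zero (hW : IntegralModel v W) {x y : F}
    (h : W.Nonsingular x y) {n : ℕ} (hn : v (n : F) = 1) (htors : n • Point.some x y h = 0) :
    v x ≤ 1 := by
  by_contra hx
  rw [not_le] at hx
  have hP : InE1 v W (Point.some x y h) := hx
  have := hP.eq_zero_of_nsmul hW hn htors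
  exact Point.some_ne_zero h this

end General

section Inertia

universe u

variable {K : Type*} {L : Type u} [Field K] [Field L] [DecidableEq L] [Algebra K L]
variable (A : ValuationSubring L) {W : Affine K}

/-- Inertia fixes every `n`-torsion point (`n` a unit at `A`) whose reduction is a nonsingular
point of the reduced cubic. -/
theorem smul_eq_self_of_nonsingular_red (hW : IntegralModel A.valuation (W⁄L))
    {σ : L ≃ₐ[K] L} (hσ : σ ∈ A.inertiaSubgroupIn K)
    {n : ℕ} (hn : A.valuation (n : L) = 1) {x y : L} (h : (W⁄L).Nonsingular x y)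
    (htors : n • Point.some x y h = 0)
    (hns : A.valuation ((W⁄L).a₁ * y - (3 * x ^ 2 + 2 * (W⁄L).a₂ * x + (W⁄L).a₄)) = 1 ∨
      A.valuation (2 * y + (W⁄L).a₁ * x + (W⁄L).a₃) = 1) :
    σ • Point.some x y h = Point.some x y h := by
  have hx := val_x_le_one_of_nsmul_eq_zero hW h hn htors
  have hy := val_y_le_one_of_val_x_le_one hW h.1 hx
  have hσx : A.valuation (σ x) ≤ 1 := (inertia_val_le_one_iff A hσ x).mpr hx
  have hσy : A.valuation (σ y) ≤ 1 := (inertia_val_le_one_iff A hσ y).mpr hy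
  have hdx : A.valuation (x - σ x) < 1 := by
    rw [Valuation.map_sub_swap]
    exact inertia_sub_lt_one A hσ ((A.valuation_le_one_iff x).mp hx)
  have hdy : A.valuation (y - σ y) < 1 := by
    rw [Valuation.map_sub_swap]
    exact inertia_sub_lt_one A hσ ((A.valuation_le_one_iff y).mp hy)
  rw [algEquiv_smul_def, Point.map_some]
  have h2 : (W⁄L).Nonsingular (σ.toAlgHom x) (σ.toAlgHom y) :=
    (W.baseChange_nonsingular σ.toAlgHom.injective ..).mpr h
  have htors2 : n • Point.some (σ.toAlgHom x) (σ.toAlgHom y) h2 = 0 := by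
    have e : Point.some (σ.toAlgHom x) (σ.toAlgHom y) h2
        = Point.map (W' := W) σ.toAlgHom (Point.some x y h) := rfl
    rw [e, ← map_nsmul, htors, _root_.map_zero]
  symm
  exact eq_of_congr_of_nsmul_eq hW h h2 hx hy hσx hσy hdx hdy hns hn (by rw [htors, htors2])

/-- Good reduction: inertia fixes all `n`-torsion points (`n` a unit at `A`). -/
theorem smul_eq_self_of_good_reduction (hW : IntegralModel A.valuation (W⁄L))
    (hΔ : A.valuation (W⁄L).Δ = 1)
    {σ : L ≃ₐ[K] L} (hσ : σ ∈ A.inertiaSubgroupIn K)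
    {n : ℕ} (hn : A.valuation (n : L) = 1) (P : (W⁄L).Point) (hP : n • P = 0) :
    σ • P = P := by
  rcases P with _ | ⟨x, y, h⟩
  · exact smul_zero σ
  · have hx := val_x_le_one_of_nsmul_eq_zero hW h hn hP
    have hy := val_y_le_one_of_val_x_le_one hW h.1 hx
    exact smul_eq_self_of_nonsingular_red A hW hσ hn h hP
      (nonsingular_red_of_val_Δ hW h.1 hx hy hΔ)

/-- Good reduction at all valuation subrings over `q` implies `GaloisRepUnramifiedAt`. -/
theorem galoisRepUnramifiedAt_of_good (W : Affine K) (n q : ℕ)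
    (hgood : ∀ A : ValuationSubring L, A.LiesOverPrime q →
      IntegralModel A.valuation (W⁄L) ∧ A.valuation (W⁄L).Δ = 1 ∧ A.valuation (n : L) = 1) :
    GaloisRepUnramifiedAt K L W n q := by
  intro A hA σ hσ x
  obtain ⟨hW, hΔ, hn⟩ := hgood A hA
  apply Subtype.ext
  show σ • (x : (W⁄L).Point) = x
  have hx := x.2
  rw [Submodule.mem_torsionBy_iff] at hx
  have hx' : n • (x : (W⁄L).Point) = 0 := by
    rw [← natCast_zsmul]; exact hx
  exact smul_eq_self_of_good_reduction A hW hΔ hσ hn _ hx'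

end Inertia

end Fermat.Agent.S05lib
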